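import Mathlib

/-!
# S55 / Herbrand hexagon in explicit subgroup-index form

`M` a commutative group with two endomorphisms `f`, `g` such that `f ∘ g = 1 = g ∘ f`
(think `f = σ - 1`, `g = norm` for a cyclic group action).  The two "Tate cohomology orders" are
`h0 M = [ker f : im g] = g.range.relIndex f.ker` and `h1 M = [ker g : im f]`.

For a stable subgroup `N` we prove the hexagon identity
`h0 M * h1 N * h1 (M/N) = h1 M * h0 N * h0 (M/N)` (an identity of natural numbers, index `0`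
meaning infinite), together with the transfer of finiteness: if two of the three pairs are
nonzero, so is the third.
-/

namespace Fermat.Agent.S55

set_option linter.style.haveILetI false
set_option linter.unusedSectionVars false
set_option autoImplicit false

section Basic

variable {M : Type*} [CommGroup M]

/-- `[N ∩ g M : g N] * [ker f ∩ N : N ∩ g M] = [ker f ∩ N : g N]`. -/
@[to_additive hq_add_sub_eq]
theorem hq_sub_eq (f g : M →* M) (hfg : ∀ x, f (g x) = 1) (N : Subgroup M) (hNg : N.map g ≤ N) :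
    (N.map g).relIndex (N ⊓ g.range) * (N ⊓ g.range).relIndex (f.ker ⊓ N)
      = (N.map g).relIndex (f.ker ⊓ N) := by
  have hrange : g.range ≤ f.ker := by
    rintro _ ⟨x, rfl⟩
    exact hfg x
  have h1 : N.map g ≤ N ⊓ g.range := by
    refine le_inf hNg ?_
    rw [MonoidHom.range_eq_map]
    exact Subgroup.map_mono le_top
  have h2 : N ⊓ g.range ≤ f.ker ⊓ N := le_inf (inf_le_right.trans hrange) inf_le_left
  exact Subgroup.relIndex_mul_relIndex _ _ _ h1 h2

/-- `[ker f ∩ N : N ∩ g M] * [ker f : (ker f ∩ N) · g M] = [ker f : g M]`. -/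
@[to_additive hq_add_mid_eq]
theorem hq_mid_eq (f g : M →* M) (hfg : ∀ x, f (g x) = 1) (N : Subgroup M) :
    (N ⊓ g.range).relIndex (f.ker ⊓ N) * ((f.ker ⊓ N) ⊔ g.range).relIndex f.ker
      = g.range.relIndex f.ker := by
  have hrange : g.range ≤ f.ker := by
    rintro _ ⟨x, rfl⟩
    exact hfg x
  have h1 : g.range.relIndex ((f.ker ⊓ N) ⊔ g.range) = (N ⊓ g.range).relIndex (f.ker ⊓ N) := by
    rw [Subgroup.relIndex_sup_right, ← Subgroup.inf_relIndex_right]
    congr 1
    apply le_antisymm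
    · exact le_inf (inf_le_right.trans inf_le_right) inf_le_left
    · exact le_inf inf_le_right (le_inf (inf_le_right.trans hrange) inf_le_left)
  rw [← h1]
  exact Subgroup.relIndex_mul_relIndex _ _ _ le_sup_right (sup_le inf_le_left hrange)

/-- `[N ∩ f M : f N] * [ker f : (ker f ∩ N) · g M] = [f⁻¹ N : g M · N]`. -/
@[to_additive hq_add_quot_eq]
theorem hq_quot_eq (f g : M →* M) (hfg : ∀ x, f (g x) = 1) (N : Subgroup M) (hNf : N.map f ≤ N) :
    (N.map f).relIndex (N ⊓ f.range) * ((f.ker ⊓ N) ⊔ g.range).relIndex f.ker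
      = (g.range ⊔ N).relIndex (N.comap f) := by
  have hrange : g.range ≤ f.ker := by
    rintro _ ⟨x, rfl⟩
    exact hfg x
  have hN : N ≤ N.comap f := by
    intro x hx
    exact hNf ⟨x, hx, rfl⟩
  have hker : f.ker ≤ N.comap f := by
    intro x hx
    rw [Subgroup.mem_comap, MonoidHom.mem_ker.1 hx]
    exact N.one_mem
  -- first factor
  have h1 : (f.ker ⊔ N).relIndex (N.comap f) = (N.map f).relIndex (N ⊓ f.range) := by
    have e1 : f.ker ⊔ N = (N.map f).comap f := by
      rw [Subgroup.comap_map_eq, sup_comm]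
    have e2 : (N.comap f).map f = N ⊓ f.range := by
      rw [Subgroup.map_comap_eq, inf_comm]
    rw [e1, Subgroup.relIndex_comap, e2]
  -- second factor
  have h2 : (g.range ⊔ N).relIndex (f.ker ⊔ N) = ((f.ker ⊓ N) ⊔ g.range).relIndex f.ker := by
    have e1 : f.ker ⊔ N = f.ker ⊔ (g.range ⊔ N) := by
      rw [← sup_assoc, sup_eq_left.2 hrange]
    have e2 : (g.range ⊔ N) ⊓ f.ker = (f.ker ⊓ N) ⊔ g.range := by
      apply le_antisymm
      · rintro x ⟨hx, hxf⟩
        obtain ⟨a, ha, b, hb, rfl⟩ := Subgroup.mem_sup.1 hx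
        refine Subgroup.mem_sup.2 ⟨b, ⟨?_, hb⟩, a, ha, mul_comm _ _⟩
        have : b = a⁻¹ * (a * b) := by group
        rw [this]
        exact f.ker.mul_mem (f.ker.inv_mem (hrange ha)) hxf
      · exact sup_le (le_inf (inf_le_right.trans le_sup_right) inf_le_left)
          (le_inf le_sup_left hrange)
    rw [e1, Subgroup.relIndex_sup_right, ← Subgroup.inf_relIndex_right, e2]
  rw [← h1, ← h2, mul_comm]
  exact Subgroup.relIndex_mul_relIndex _ _ _ (sup_le (hrange.trans le_sup_left) le_sup_right)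
    (sup_le hker hN)

/-- **Herbrand hexagon**, subgroup form.  With `h0 M = [ker f : g M]`, `h1 M = [ker g : f M]`,
`h0 N = [ker f ∩ N : g N]`, `h1 N = [ker g ∩ N : f N]`, `h0 (M/N) = [f⁻¹ N : g M · N]`,
`h1 (M/N) = [g⁻¹ N : f M · N]`:
`h0 M * h1 N * h1 (M/N) = h1 M * h0 N * h0 (M/N)`, and if two of the three pairs are nonzero
so is the third. -/
@[to_additive hq_add_hexagon_subgroup]
theorem hq_hexagon_subgroup (f g : M →* M) (hfg : ∀ x, f (g x) = 1) (hgf : ∀ x, g (f x) = 1)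
    (N : Subgroup M) (hNf : N.map f ≤ N) (hNg : N.map g ≤ N) :
    g.range.relIndex f.ker * (N.map f).relIndex (g.ker ⊓ N) *
        (f.range ⊔ N).relIndex (N.comap g)
      = f.range.relIndex g.ker * (N.map g).relIndex (f.ker ⊓ N) *
        (g.range ⊔ N).relIndex (N.comap f)
    ∧ (g.range.relIndex f.ker ≠ 0 → f.range.relIndex g.ker ≠ 0 →
        (N.map g).relIndex (f.ker ⊓ N) ≠ 0 → (N.map f).relIndex (g.ker ⊓ N) ≠ 0 →
        (g.range ⊔ N).relIndex (N.comap f) ≠ 0 ∧ (f.range ⊔ N).relIndex (N.comap g) ≠ 0)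
    ∧ (g.range.relIndex f.ker ≠ 0 → f.range.relIndex g.ker ≠ 0 →
        (g.range ⊔ N).relIndex (N.comap f) ≠ 0 → (f.range ⊔ N).relIndex (N.comap g) ≠ 0 →
        (N.map g).relIndex (f.ker ⊓ N) ≠ 0 ∧ (N.map f).relIndex (g.ker ⊓ N) ≠ 0)
    ∧ ((N.map g).relIndex (f.ker ⊓ N) ≠ 0 → (N.map f).relIndex (g.ker ⊓ N) ≠ 0 →
        (g.range ⊔ N).relIndex (N.comap f) ≠ 0 → (f.range ⊔ N).relIndex (N.comap g) ≠ 0 →
        g.range.relIndex f.ker ≠ 0 ∧ f.range.relIndex g.ker ≠ 0) := by
  have s0 := hq_sub_eq f g hfg N hNg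
  have m0 := hq_mid_eq f g hfg N
  have q0 := hq_quot_eq f g hfg N hNf
  have s1 := hq_sub_eq g f hgf N hNf
  have m1 := hq_mid_eq g f hgf N
  have q1 := hq_quot_eq g f hgf N hNg
  set κ0 := (N.map g).relIndex (N ⊓ g.range)
  set α0 := (N ⊓ g.range).relIndex (f.ker ⊓ N)
  set β0 := ((f.ker ⊓ N) ⊔ g.range).relIndex f.ker
  set κ1 := (N.map f).relIndex (N ⊓ f.range)
  set α1 := (N ⊓ f.range).relIndex (g.ker ⊓ N)
  set β1 := ((g.ker ⊓ N) ⊔ f.range).relIndex g.ker
  rw [← s0, ← m0, ← q0, ← s1, ← m1, ← q1]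
  refine ⟨by ring, ?_, ?_, ?_⟩
  · intro a b c d
    have hα0 := left_ne_zero_of_mul a
    have hβ0 := right_ne_zero_of_mul a
    have hα1 := left_ne_zero_of_mul b
    have hβ1 := right_ne_zero_of_mul b
    have hκ0 := left_ne_zero_of_mul c
    have hκ1 := left_ne_zero_of_mul d
    exact ⟨mul_ne_zero hκ1 hβ0, mul_ne_zero hκ0 hβ1⟩
  · intro a b c d
    have hα0 := left_ne_zero_of_mul a
    have hα1 := left_ne_zero_of_mul b
    have hκ1 := left_ne_zero_of_mul c
    have hκ0 := left_ne_zero_of_mul d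
    exact ⟨mul_ne_zero hκ0 hα0, mul_ne_zero hκ1 hα1⟩
  · intro a b c d
    have hα0 := right_ne_zero_of_mul a
    have hα1 := right_ne_zero_of_mul b
    have hβ0 := right_ne_zero_of_mul c
    have hβ1 := right_ne_zero_of_mul d
    exact ⟨mul_ne_zero hα0 hβ0, mul_ne_zero hα1 hβ1⟩

end Basic

section Exact

variable {E M Q : Type*} [CommGroup E] [CommGroup M] [CommGroup Q]

/-- Transport of `[ker f' : im g']` along an injective equivariant map. -/
@[to_additive hq_add_relIndex_of_injective]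
theorem hq_relIndex_of_injective (ι : E →* M) (hι : Function.Injective ι)
    (f g : M →* M) (f' g' : E →* E)
    (hf : ∀ a, ι (f' a) = f (ι a)) (hg : ∀ a, ι (g' a) = g (ι a)) :
    g'.range.relIndex f'.ker = (ι.range.map g).relIndex (f.ker ⊓ ι.range) := by
  rw [← Subgroup.relIndex_map_map_of_injective _ _ hι]
  congr 1
  · ext x
    simp only [Subgroup.mem_map, MonoidHom.mem_range]
    constructor
    · rintro ⟨_, ⟨a, rfl⟩, rfl⟩
      exact ⟨ι a, ⟨a, rfl⟩, (hg a).symm⟩
    · rintro ⟨_, ⟨a, rfl⟩, rfl⟩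
      exact ⟨g' a, ⟨a, rfl⟩, hg a⟩
  · ext x
    simp only [Subgroup.mem_map, MonoidHom.mem_ker, Subgroup.mem_inf, MonoidHom.mem_range]
    constructor
    · rintro ⟨a, ha, rfl⟩
      refine ⟨?_, a, rfl⟩
      rw [← hf, ha, map_one]
    · rintro ⟨hx, a, rfl⟩
      refine ⟨a, ?_, rfl⟩
      apply hι
      rw [hf, hx, map_one]

/-- Transport of `[ker f'' : im g'']` along a surjective equivariant map. -/
@[to_additive hq_add_relIndex_of_surjective]
theorem hq_relIndex_of_surjective (π : M →* Q) (hπ : Function.Surjective π)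
    (f g : M →* M) (f'' g'' : Q →* Q)
    (hf : ∀ a, π (f a) = f'' (π a)) (hg : ∀ a, π (g a) = g'' (π a)) :
    g''.range.relIndex f''.ker = (g.range ⊔ π.ker).relIndex (π.ker.comap f) := by
  have e1 : f''.ker.comap π = π.ker.comap f := by
    ext x
    simp only [Subgroup.mem_comap, MonoidHom.mem_ker, hf]
  have e2 : g''.range.comap π = g.range ⊔ π.ker := by
    ext x
    rw [Subgroup.mem_comap, Subgroup.mem_sup]
    constructor
    · rintro ⟨y, hy⟩
      obtain ⟨z, rfl⟩ := hπ y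
      refine ⟨g z, ⟨z, rfl⟩, (g z)⁻¹ * x, ?_, by group⟩
      rw [MonoidHom.mem_ker, map_mul, map_inv, hg, hy, inv_mul_cancel]
    · rintro ⟨_, ⟨z, rfl⟩, b, hb, rfl⟩
      refine ⟨π z, ?_⟩
      rw [map_mul, MonoidHom.mem_ker.1 hb, mul_one, hg]
  rw [← e1, ← e2, Subgroup.relIndex_comap, Subgroup.map_comap_eq_self_of_surjective hπ]

/-- **Herbrand hexagon** for a short exact sequence `1 → E → M → Q → 1` of commutative groups
with compatible pairs of endomorphisms `(f', g')`, `(f, g)`, `(f'', g'')`, `f ∘ g = 1 = g ∘ f`: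
`h0 M * h1 E * h1 Q = h1 M * h0 E * h0 Q` where `h0 X = [ker f_X : im g_X]`,
`h1 X = [ker g_X : im f_X]`; and if two of the three pairs are nonzero so is the third. -/
@[to_additive hq_add_hexagon]
theorem hq_hexagon (ι : E →* M) (π : M →* Q) (hι : Function.Injective ι)
    (hπ : Function.Surjective π) (hex : π.ker = ι.range)
    (f g : M →* M) (f' g' : E →* E) (f'' g'' : Q →* Q)
    (hf' : ∀ a, ι (f' a) = f (ι a)) (hg' : ∀ a, ι (g' a) = g (ι a))
    (hf'' : ∀ a, π (f a) = f'' (π a)) (hg'' : ∀ a, π (g a) = g'' (π a))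
    (hfg : ∀ x, f (g x) = 1) (hgf : ∀ x, g (f x) = 1) :
    g.range.relIndex f.ker * f'.range.relIndex g'.ker * f''.range.relIndex g''.ker
      = f.range.relIndex g.ker * g'.range.relIndex f'.ker * g''.range.relIndex f''.ker
    ∧ (g.range.relIndex f.ker ≠ 0 → f.range.relIndex g.ker ≠ 0 →
        g'.range.relIndex f'.ker ≠ 0 → f'.range.relIndex g'.ker ≠ 0 →
        g''.range.relIndex f''.ker ≠ 0 ∧ f''.range.relIndex g''.ker ≠ 0)
    ∧ (g.range.relIndex f.ker ≠ 0 → f.range.relIndex g.ker ≠ 0 →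
        g''.range.relIndex f''.ker ≠ 0 → f''.range.relIndex g''.ker ≠ 0 →
        g'.range.relIndex f'.ker ≠ 0 ∧ f'.range.relIndex g'.ker ≠ 0)
    ∧ (g'.range.relIndex f'.ker ≠ 0 → f'.range.relIndex g'.ker ≠ 0 →
        g''.range.relIndex f''.ker ≠ 0 → f''.range.relIndex g''.ker ≠ 0 →
        g.range.relIndex f.ker ≠ 0 ∧ f.range.relIndex g.ker ≠ 0) := by
  have hNf : ι.range.map f ≤ ι.range := by
    rintro _ ⟨_, ⟨a, rfl⟩, rfl⟩
    exact ⟨f' a, hf' a⟩
  have hNg : ι.range.map g ≤ ι.range := by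
    rintro _ ⟨_, ⟨a, rfl⟩, rfl⟩
    exact ⟨g' a, hg' a⟩
  rw [hq_relIndex_of_injective ι hι f g f' g' hf' hg',
    hq_relIndex_of_injective ι hι g f g' f' hg' hf',
    hq_relIndex_of_surjective π hπ f g f'' g'' hf'' hg'',
    hq_relIndex_of_surjective π hπ g f g'' f'' hg'' hf'', hex]
  exact hq_hexagon_subgroup f g hfg hgf ι.range hNf hNg

end Exact

end Fermat.Agent.S55
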