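import Mathlib

/-!
# S55 / Herbrand indices of products (explicit subgroup-index form)

* `hq_index_pi`, `hq_relIndex_pi`: index of a (dependent) finite product of subgroups.
* `hq_relIndex_of_surjective_pi`: if `ρ : M → Π i, M' i` is a surjective equivariant map onto a
  finite product, and the kernel of `ρ` has trivial `h0`, `h1`, then
  `h0 M = ∏ i, h0 (M' i)` and `h1 M = ∏ i, h1 (M' i)`.
-/

namespace Fermat.Agent.S55

set_option linter.style.haveILetI false
set_option linter.unusedSectionVars false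
set_option autoImplicit false

section Pi

variable {ι : Type*} [Fintype ι] {G : ι → Type*} [∀ i, Group (G i)]

@[to_additive hq_add_index_pi]
theorem hq_index_pi (H : ∀ i, Subgroup (G i)) :
    (Subgroup.pi Set.univ H).index = ∏ i, (H i).index := by
  simp_rw [Subgroup.index, ← Nat.card_pi]
  refine Nat.card_congr
    ((Quotient.congrRight (fun x y ↦ ?_)).trans (Setoid.piQuotientEquiv _).symm)
  rw [QuotientGroup.leftRel_pi]

@[to_additive hq_add_relIndex_pi]
theorem hq_relIndex_pi (H K : ∀ i, Subgroup (G i)) :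
    (Subgroup.pi Set.univ H).relIndex (Subgroup.pi Set.univ K) = ∏ i, (H i).relIndex (K i) := by
  let e : (∀ i, K i) →* ∀ i, G i := MonoidHom.pi fun i => (K i).subtype.comp (Pi.evalMonoidHom _ i)
  have hrange : e.range = Subgroup.pi Set.univ K := by
    ext x
    simp only [MonoidHom.mem_range, Subgroup.mem_pi, Set.mem_univ, forall_const]
    constructor
    · rintro ⟨y, rfl⟩ i
      exact (y i).2
    · intro hx
      exact ⟨fun i => ⟨x i, hx i⟩, rfl⟩
  have hcomap : (Subgroup.pi Set.univ H).comap e =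
      Subgroup.pi Set.univ fun i => (H i).subgroupOf (K i) := by
    ext x
    simp only [Subgroup.mem_comap, Subgroup.mem_pi, Set.mem_univ, forall_const,
      Subgroup.mem_subgroupOf]
    rfl
  rw [← hrange, ← Subgroup.index_comap, hcomap, hq_index_pi]
  rfl

end Pi

section Surjective

variable {M : Type*} [CommGroup M] {ι : Type*} [Fintype ι] {M' : ι → Type*}
  [∀ i, CommGroup (M' i)]

/-- If `ρ : M → Π i, M' i` is surjective and equivariant, and the kernel of `ρ` has trivial
`h0` and `h1` (in element form), then `[ker f : im g] = ∏ i, [ker f'_i : im g'_i]`. -/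
@[to_additive hq_add_relIndex_of_surjective_pi]
theorem hq_relIndex_of_surjective_pi (ρ : M →* ∀ i, M' i) (hρ : Function.Surjective ρ)
    (f g : M →* M) (f' g' : ∀ i, M' i →* M' i)
    (hf : ∀ x i, ρ (f x) i = f' i (ρ x i)) (hg : ∀ x i, ρ (g x) i = g' i (ρ x i))
    (hfg : ∀ x, f (g x) = 1) (hgf : ∀ x, g (f x) = 1)
    (hK0 : ∀ x ∈ ρ.ker, f x = 1 → ∃ y ∈ ρ.ker, g y = x)
    (hK1 : ∀ x ∈ ρ.ker, g x = 1 → ∃ y ∈ ρ.ker, f y = x) :
    g.range.relIndex f.ker = ∏ i, (g' i).range.relIndex (f' i).ker := by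
  have hAB : g.range ≤ f.ker := by
    rintro _ ⟨x, rfl⟩
    exact hfg x
  -- images under `ρ`
  have h1 : g.range.map ρ = Subgroup.pi Set.univ fun i => (g' i).range := by
    ext x
    simp only [Subgroup.mem_map, MonoidHom.mem_range, Subgroup.mem_pi, Set.mem_univ,
      forall_const]
    constructor
    · rintro ⟨_, ⟨m, rfl⟩, rfl⟩ i
      exact ⟨ρ m i, (hg m i).symm⟩
    · intro hx
      choose z hz using hx
      obtain ⟨m, hm⟩ := hρ z
      refine ⟨g m, ⟨m, rfl⟩, ?_⟩
      funext i
      rw [hg, hm, hz]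
  have h2 : f.ker.map ρ = Subgroup.pi Set.univ fun i => (f' i).ker := by
    ext x
    simp only [Subgroup.mem_map, MonoidHom.mem_ker, Subgroup.mem_pi, Set.mem_univ,
      forall_const]
    constructor
    · rintro ⟨m, hm, rfl⟩ i
      rw [← hf, hm, map_one]
      rfl
    · intro hx
      obtain ⟨m, rfl⟩ := hρ x
      have hfm : f m ∈ ρ.ker := by
        rw [MonoidHom.mem_ker]
        funext i
        rw [hf, hx i]
        rfl
      have hgfm : g (f m) = 1 := hgf m
      obtain ⟨y, hy, hfy⟩ := hK1 (f m) hfm hgfm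
      refine ⟨m * y⁻¹, ?_, ?_⟩
      · rw [map_mul, map_inv, hfy, mul_inv_cancel]
      · rw [map_mul, map_inv, MonoidHom.mem_ker.1 hy, inv_one, mul_one]
  -- `(A ⊔ K) ⊓ B = A`
  have h3 : (g.range ⊔ ρ.ker) ⊓ f.ker = g.range := by
    apply le_antisymm
    · rintro x ⟨hx, hxf⟩
      obtain ⟨_, ⟨m, rfl⟩, k, hk, rfl⟩ := Subgroup.mem_sup.1 hx
      have hfk : f k = 1 := by
        have := MonoidHom.mem_ker.1 hxf
        rwa [map_mul, hfg, one_mul] at this
      obtain ⟨y, _, hy⟩ := hK0 k hk hfk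
      exact ⟨m * y, by rw [map_mul, hy]⟩
    · exact le_inf le_sup_left hAB
  have h4 : g.range.relIndex f.ker = (g.range.map ρ).relIndex (f.ker.map ρ) := by
    rw [Subgroup.relIndex_map_map]
    have e1 : f.ker ⊔ ρ.ker = f.ker ⊔ (g.range ⊔ ρ.ker) := by
      rw [← sup_assoc, sup_eq_left.2 hAB]
    rw [e1, Subgroup.relIndex_sup_right, ← Subgroup.inf_relIndex_right (H := g.range ⊔ ρ.ker), h3]
  rw [h4, h1, h2, hq_relIndex_pi]

end Surjective

end Fermat.Agent.S55
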