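import Fermat.Agent.S55.SUnit.Semilocal
import Fermat.Agent.S55.SUnit.Hexagon

/-!
# S55 / semilocal Herbrand indices: transported and ring-level forms

* `hq_semilocal_equiv`: `hq_semilocal` for a group `M` with a `MulEquiv` to a finite product.
* `hq_semilocal_ring`: for a reduced artinian commutative ring `R` with an automorphism `σ` of
  prime order `p`, the Herbrand indices of `(Rˣ, σ)` are the products of those of the residue
  fields `R ⧸ 𝔪` at the `σ`-stable maximal ideals `𝔪`.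
-/

namespace Fermat.Agent.S55

set_option linter.style.haveILetI false
set_option linter.unusedSectionVars false
set_option autoImplicit false

open Finset

section Equiv

variable {M : Type*} [CommGroup M] {ι : Type*} [Fintype ι] [DecidableEq ι] {G : ι → Type*}
  [∀ i, CommGroup (G i)]

/-- Invariance of `[ker f : im g]` under a group isomorphism. -/
theorem hq_relIndex_of_mulEquiv {M' : Type*} [CommGroup M'] (e : M ≃* M')
    (f g : M →* M) (f' g' : M' →* M')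
    (hf : ∀ a, e (f a) = f' (e a)) (hg : ∀ a, e (g a) = g' (e a)) :
    g'.range.relIndex f'.ker = g.range.relIndex f.ker := by
  rw [hq_relIndex_of_surjective e.toMonoidHom e.surjective f g f' g' hf hg]
  have hker : e.toMonoidHom.ker = ⊥ := (MonoidHom.ker_eq_bot_iff _).2 e.injective
  rw [hker, sup_bot_eq]
  rfl

theorem hq_semilocal_equiv (e : M ≃* ∀ i, G i) (σ : MulAut M) (s : Equiv.Perm ι)
    (hσs : ∀ i (a : G i), ∃ b : G (s i), e (σ (e.symm (Pi.mulSingle i a))) = Pi.mulSingle (s i) b)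
    (p : ℕ) [hp : Fact p.Prime] (hs : s ^ p = 1) (hσ : σ ^ p = 1)
    (f g : M →* M) (hfdef : ∀ x, f x = σ x / x)
    (hgdef : ∀ x, g x = ∏ k ∈ range p, (σ ^ k) x)
    (f' g' : ∀ i : {i // s i = i}, G i.1 →* G i.1)
    (hf' : ∀ x (i : {i // s i = i}), e (f x) i.1 = f' i (e x i.1))
    (hg' : ∀ x (i : {i // s i = i}), e (g x) i.1 = g' i (e x i.1)) :
    g.range.relIndex f.ker = ∏ i, (g' i).range.relIndex (f' i).ker ∧
      f.range.relIndex g.ker = ∏ i, (f' i).range.relIndex (g' i).ker := by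
  -- transport everything to the product
  let σ' : MulAut (∀ i, G i) := (e.symm.trans σ).trans e
  have hσ'app : ∀ y, σ' y = e (σ (e.symm y)) := fun _ => rfl
  have hσ'pow : ∀ (k : ℕ) y, (σ' ^ k) y = e ((σ ^ k) (e.symm y)) := by
    intro k
    induction k with
    | zero => intro y; simp
    | succ k ih =>
      intro y
      rw [pow_succ', MulAut.mul_apply, ih, hσ'app, MulEquiv.symm_apply_apply, pow_succ',
        MulAut.mul_apply]
  let f₁ : (∀ i, G i) →* (∀ i, G i) := (e.toMonoidHom.comp f).comp e.symm.toMonoidHom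
  let g₁ : (∀ i, G i) →* (∀ i, G i) := (e.toMonoidHom.comp g).comp e.symm.toMonoidHom
  have hf₁ : ∀ a, e (f a) = f₁ (e a) := fun a => by
    change e (f a) = e (f (e.symm (e a)))
    rw [MulEquiv.symm_apply_apply]
  have hg₁ : ∀ a, e (g a) = g₁ (e a) := fun a => by
    change e (g a) = e (g (e.symm (e a)))
    rw [MulEquiv.symm_apply_apply]
  have key := hq_semilocal σ' s hσs p hs
    (by
      ext y : 1
      rw [hσ'pow, hσ, MulAut.one_apply, MulEquiv.apply_symm_apply, MulAut.one_apply])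
    f₁ g₁
    (fun y => by
      change e (f (e.symm y)) = σ' y / y
      rw [hfdef, map_div, MulEquiv.apply_symm_apply, hσ'app])
    (fun y => by
      change e (g (e.symm y)) = _
      rw [hgdef, map_prod]
      exact Finset.prod_congr rfl fun k _ => (hσ'pow k y).symm)
    f' g'
    (fun y i => by
      change e (f (e.symm y)) i.1 = _
      rw [hf', MulEquiv.apply_symm_apply])
    (fun y i => by
      change e (g (e.symm y)) i.1 = _
      rw [hg', MulEquiv.apply_symm_apply])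
  rw [← hq_relIndex_of_mulEquiv e f g f₁ g₁ hf₁ hg₁, ← hq_relIndex_of_mulEquiv e g f g₁ f₁ hg₁ hf₁]
  exact key

end Equiv

section Ring

open scoped Classical

variable {R : Type*} [CommRing R] [IsArtinianRing R] [IsReduced R]

/-- The permutation `𝔪 ↦ σ(𝔪)` of the maximal spectrum induced by a ring automorphism. -/
noncomputable def hq_specPerm (σ : R ≃+* R) : Equiv.Perm (MaximalSpectrum R) where
  toFun 𝔪 := ⟨Ideal.comap (σ.symm : R →+* R) 𝔪.asIdeal,
    Ideal.comap_isMaximal_of_surjective _ σ.symm.surjective⟩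
  invFun 𝔪 := ⟨Ideal.comap (σ : R →+* R) 𝔪.asIdeal,
    Ideal.comap_isMaximal_of_surjective _ σ.surjective⟩
  left_inv 𝔪 := by
    apply MaximalSpectrum.ext
    ext x
    change σ.symm (σ x) ∈ 𝔪.asIdeal ↔ x ∈ 𝔪.asIdeal
    rw [RingEquiv.symm_apply_apply]
  right_inv 𝔪 := by
    apply MaximalSpectrum.ext
    ext x
    change σ (σ.symm x) ∈ 𝔪.asIdeal ↔ x ∈ 𝔪.asIdeal
    rw [RingEquiv.apply_symm_apply]

theorem hq_mem_specPerm (σ : R ≃+* R) (𝔪 : MaximalSpectrum R) (x : R) :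
    x ∈ (hq_specPerm σ 𝔪).asIdeal ↔ σ.symm x ∈ 𝔪.asIdeal := Iff.rfl

theorem hq_apply_mem_specPerm (σ : R ≃+* R) (𝔪 : MaximalSpectrum R) (x : R) :
    σ x ∈ (hq_specPerm σ 𝔪).asIdeal ↔ x ∈ 𝔪.asIdeal := by
  rw [hq_mem_specPerm, RingEquiv.symm_apply_apply]

/-- The unit group of a reduced artinian ring as a finite product of unit groups of fields. -/
noncomputable def hq_unitsEquivPi (R : Type*) [CommRing R] [IsArtinianRing R] [IsReduced R] :
    Rˣ ≃* ∀ 𝔪 : MaximalSpectrum R, (R ⧸ 𝔪.asIdeal)ˣ :=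
  (Units.mapEquiv (IsArtinianRing.equivPi R).toRingEquiv.toMulEquiv).trans MulEquiv.piUnits

theorem hq_unitsEquivPi_apply (x : Rˣ) (𝔪 : MaximalSpectrum R) :
    ((hq_unitsEquivPi R x 𝔪 : (R ⧸ 𝔪.asIdeal)ˣ) : R ⧸ 𝔪.asIdeal) =
      Ideal.Quotient.mk 𝔪.asIdeal (x : R) :=
  IsArtinianRing.equivPi_apply R x 𝔪

/-- Reduction of units modulo a maximal ideal. -/
noncomputable def hq_unitsMk (𝔪 : MaximalSpectrum R) : Rˣ →* (R ⧸ 𝔪.asIdeal)ˣ :=
  Units.map (Ideal.Quotient.mk 𝔪.asIdeal : R →* R ⧸ 𝔪.asIdeal)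

theorem hq_unitsMk_coe (𝔪 : MaximalSpectrum R) (x : Rˣ) :
    ((hq_unitsMk 𝔪 x : (R ⧸ 𝔪.asIdeal)ˣ) : R ⧸ 𝔪.asIdeal) = Ideal.Quotient.mk 𝔪.asIdeal (x : R) :=
  rfl

theorem hq_unitsEquivPi_eq (x : Rˣ) (𝔪 : MaximalSpectrum R) :
    hq_unitsEquivPi R x 𝔪 = hq_unitsMk 𝔪 x :=
  Units.ext (hq_unitsEquivPi_apply x 𝔪)

/-- The automorphism of the unit group induced by a ring automorphism. -/
noncomputable def hq_unitsAut (σ : R ≃+* R) : MulAut Rˣ := Units.mapEquiv σ.toMulEquiv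

theorem hq_unitsAut_coe (σ : R ≃+* R) (x : Rˣ) : ((hq_unitsAut σ x : Rˣ) : R) = σ (x : R) := rfl

theorem hq_unitsAut_pow_coe (σ : R ≃+* R) (k : ℕ) (x : Rˣ) :
    (((hq_unitsAut σ ^ k) x : Rˣ) : R) = (σ ^ k) (x : R) := by
  induction k with
  | zero => simp
  | succ k ih =>
    rw [pow_succ', MulAut.mul_apply, hq_unitsAut_coe, ih, pow_succ', RingAut.mul_apply]

theorem hq_specPerm_pow_mem (σ : R ≃+* R) (k : ℕ) (𝔪 : MaximalSpectrum R) (x : R) :
    (σ ^ k) x ∈ ((hq_specPerm σ ^ k) 𝔪).asIdeal ↔ x ∈ 𝔪.asIdeal := by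
  induction k generalizing x with
  | zero => simp
  | succ k ih =>
    rw [pow_succ' σ k, pow_succ' (hq_specPerm σ) k, RingAut.mul_apply, Equiv.Perm.mul_apply,
      hq_apply_mem_specPerm, ih]

/-- **Semilocal Herbrand indices, ring form.**  `R` reduced artinian, `σ` a ring automorphism
with `σ ^ p = 1`, `p` prime; `f x = σ x / x`, `g x = ∏_{k<p} σ^k x` on `Rˣ`.  Then
`[ker f : im g]` and `[ker g : im f]` are the products over the `σ`-stable maximal ideals `𝔪`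
of the corresponding indices for `(R ⧸ 𝔪)ˣ` (for any endomorphisms `f'_𝔪, g'_𝔪` of `(R ⧸ 𝔪)ˣ`
compatible with `f`, `g` under reduction). -/
theorem hq_semilocal_ring [Fintype (MaximalSpectrum R)] (σ : R ≃+* R) (p : ℕ)
    [hp : Fact p.Prime] (hσ : σ ^ p = 1)
    (f g : Rˣ →* Rˣ) (hfdef : ∀ x, f x = hq_unitsAut σ x / x)
    (hgdef : ∀ x, g x = ∏ k ∈ range p, (hq_unitsAut σ ^ k) x)
    (f' g' : ∀ 𝔪 : {𝔪 // hq_specPerm σ 𝔪 = 𝔪}, (R ⧸ 𝔪.1.asIdeal)ˣ →* (R ⧸ 𝔪.1.asIdeal)ˣ)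
    (hf' : ∀ x (𝔪 : {𝔪 // hq_specPerm σ 𝔪 = 𝔪}), hq_unitsMk 𝔪.1 (f x) = f' 𝔪 (hq_unitsMk 𝔪.1 x))
    (hg' : ∀ x (𝔪 : {𝔪 // hq_specPerm σ 𝔪 = 𝔪}), hq_unitsMk 𝔪.1 (g x) = g' 𝔪 (hq_unitsMk 𝔪.1 x)) :
    g.range.relIndex f.ker = ∏ 𝔪, (g' 𝔪).range.relIndex (f' 𝔪).ker ∧
      f.range.relIndex g.ker = ∏ 𝔪, (f' 𝔪).range.relIndex (g' 𝔪).ker := by
  have hs : hq_specPerm σ ^ p = 1 := by
    ext 𝔪 : 1
    apply MaximalSpectrum.ext
    ext x
    have := hq_specPerm_pow_mem σ p 𝔪 x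
    rw [hσ] at this
    exact this
  have hσu : hq_unitsAut σ ^ p = 1 := by
    ext x : 2
    rw [hq_unitsAut_pow_coe, hσ]
    rfl
  have hσs : ∀ (𝔪 : MaximalSpectrum R) (a : (R ⧸ 𝔪.asIdeal)ˣ),
      ∃ b : (R ⧸ (hq_specPerm σ 𝔪).asIdeal)ˣ,
        hq_unitsEquivPi R (hq_unitsAut σ ((hq_unitsEquivPi R).symm (Pi.mulSingle 𝔪 a))) =
          Pi.mulSingle (hq_specPerm σ 𝔪) b := by
    intro 𝔪 a
    set y := (hq_unitsEquivPi R).symm (Pi.mulSingle 𝔪 a) with hy
    have hey : hq_unitsEquivPi R y = Pi.mulSingle 𝔪 a := MulEquiv.apply_symm_apply _ _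
    refine ⟨hq_unitsEquivPi R (hq_unitsAut σ y) (hq_specPerm σ 𝔪), ?_⟩
    funext 𝔫
    by_cases h𝔫 : 𝔫 = hq_specPerm σ 𝔪
    · subst h𝔫
      rw [Pi.mulSingle_eq_same]
    · rw [Pi.mulSingle_eq_of_ne h𝔫]
      -- `y ≡ 1` modulo `σ⁻¹ 𝔫`
      have h1 : (hq_specPerm σ).symm 𝔫 ≠ 𝔪 := by
        intro h
        apply h𝔫
        rw [← h, Equiv.apply_symm_apply]
      have h2 : hq_unitsEquivPi R y ((hq_specPerm σ).symm 𝔫) = 1 := by
        rw [hey, Pi.mulSingle_eq_of_ne h1]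
      apply Units.ext
      rw [hq_unitsEquivPi_apply, Units.val_one, hq_unitsAut_coe]
      have h3 := congrArg Units.val h2
      rw [hq_unitsEquivPi_apply, Units.val_one, ← map_one (Ideal.Quotient.mk _),
        Ideal.Quotient.eq] at h3
      rw [← map_one (Ideal.Quotient.mk _), Ideal.Quotient.eq]
      have h4 : σ ((y : R) - 1) ∈ (hq_specPerm σ ((hq_specPerm σ).symm 𝔫)).asIdeal :=
        (hq_apply_mem_specPerm σ _ _).2 h3
      rwa [Equiv.apply_symm_apply, map_sub, map_one] at h4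
  exact hq_semilocal_equiv (hq_unitsEquivPi R) (hq_unitsAut σ) (hq_specPerm σ) hσs p hs hσu
    f g hfdef hgdef f' g'
    (fun x 𝔪 => by rw [hq_unitsEquivPi_eq, hq_unitsEquivPi_eq]; exact hf' x 𝔪)
    (fun x 𝔪 => by rw [hq_unitsEquivPi_eq, hq_unitsEquivPi_eq]; exact hg' x 𝔪)

end Ring

end Fermat.Agent.S55
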