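import Mathlib
import Fermat.Agent.S14.Density.SplitDensity

/-!
# S55 / S-unit block, part 3: Galois action on `T`-units

`K/F` Galois extension of number fields, `S` a finite set of primes of `F`, `T` the set of primes
of `K` above `S`.

* `su_valuation_act`: `(σ w)(σ x) = w(x)` for the adic valuations.
* `su_primesAbove F K S : Finset (HeightOneSpectrum (𝓞 K))`, the primes above `S`, with
  `su_card_primesAbove`.
* `su_unitAut σ : E_T ≃* E_T`, `su_theta`, `su_nu`, `su_tauAdd`.
* `su_unit_of_fixed`: Galois-fixed `T`-units come from `S`-units of `F`.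
-/

namespace Fermat.Agent.S55

open NumberField IsDedekindDomain Module Fermat.Agent.S14

set_option linter.unusedSectionVars false

section ValuationEquiv

variable {R : Type*} [CommRing R] [IsDedekindDomain R]

theorem su_equiv_asIdeal_pow (e : R ≃+* R) (v : HeightOneSpectrum R) (n : ℕ) (r : R) :
    e r ∈ (HeightOneSpectrum.equivOfRingEquiv e v).asIdeal ^ n ↔ r ∈ v.asIdeal ^ n := by
  have h1 : (HeightOneSpectrum.equivOfRingEquiv e v).asIdeal = v.asIdeal.map e := by
    rw [← Ideal.comap_symm]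
    rfl
  rw [h1, ← Ideal.map_pow, ← Ideal.comap_symm, Ideal.mem_comap]
  simp

/-- Transport of the adic valuation along a ring automorphism (integral version). -/
theorem su_intValuation_equiv (e : R ≃+* R) (v : HeightOneSpectrum R) (r : R) :
    (HeightOneSpectrum.equivOfRingEquiv e v).intValuation (e r) = v.intValuation r := by
  rcases eq_or_ne r 0 with rfl | hr
  · simp
  have her : e r ≠ 0 := by simpa using hr
  apply le_antisymm
  · rw [v.intValuation_if_neg hr, HeightOneSpectrum.intValuation_le_pow_iff_mem,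
      su_equiv_asIdeal_pow, ← HeightOneSpectrum.intValuation_le_pow_iff_mem,
      v.intValuation_if_neg hr]
  · rw [(HeightOneSpectrum.equivOfRingEquiv e v).intValuation_if_neg her,
      HeightOneSpectrum.intValuation_le_pow_iff_mem,
      ← su_equiv_asIdeal_pow e, ← HeightOneSpectrum.intValuation_le_pow_iff_mem,
      (HeightOneSpectrum.equivOfRingEquiv e v).intValuation_if_neg her]

variable {K : Type*} [Field K] [Algebra R K] [IsFractionRing R K]

/-- Transport of the adic valuation along a ring automorphism. -/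
theorem su_valuation_equiv (e : R ≃+* R) (σ : K ≃+* K)
    (hσ : ∀ r : R, σ (algebraMap R K r) = algebraMap R K (e r))
    (v : HeightOneSpectrum R) (x : K) :
    (HeightOneSpectrum.equivOfRingEquiv e v).valuation K (σ x) = v.valuation K x := by
  obtain ⟨a, b, hb, rfl⟩ := IsFractionRing.div_surjective (A := R) x
  rw [map_div₀, map_div₀, map_div₀, hσ, hσ, HeightOneSpectrum.valuation_of_algebraMap,
    HeightOneSpectrum.valuation_of_algebraMap, HeightOneSpectrum.valuation_of_algebraMap,
    HeightOneSpectrum.valuation_of_algebraMap, su_intValuation_equiv, su_intValuation_equiv]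

end ValuationEquiv

section NF

variable {F K : Type*} [Field F] [NumberField F] [Field K] [NumberField K] [Algebra F K]

/-- The ring automorphism of `𝓞 K` induced by `σ ∈ Gal(K/F)`. -/
noncomputable def su_oEquiv (σ : Gal(K/F)) : 𝓞 K ≃+* 𝓞 K :=
  RingOfIntegers.mapRingEquiv (σ : K ≃+* K)

@[simp] theorem su_oEquiv_coe (σ : Gal(K/F)) (x : 𝓞 K) : ((su_oEquiv σ x : 𝓞 K) : K) = σ x := rfl

theorem su_oEquiv_algebraMap (σ : Gal(K/F)) (y : 𝓞 F) :
    su_oEquiv σ (algebraMap (𝓞 F) (𝓞 K) y) = algebraMap (𝓞 F) (𝓞 K) y := by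
  apply RingOfIntegers.ext
  rw [su_oEquiv_coe]
  have : ((algebraMap (𝓞 F) (𝓞 K) y : 𝓞 K) : K) = algebraMap F K (y : F) := rfl
  rw [this, AlgEquiv.commutes]

/-- The action of `σ ∈ Gal(K/F)` on the primes of `K`. -/
noncomputable def su_primeAct (σ : Gal(K/F)) :
    HeightOneSpectrum (𝓞 K) ≃ HeightOneSpectrum (𝓞 K) :=
  HeightOneSpectrum.equivOfRingEquiv (su_oEquiv σ)

/-- `(σ w)(σ x) = w(x)`. -/
theorem su_valuation_act (σ : Gal(K/F)) (w : HeightOneSpectrum (𝓞 K)) (x : K) :
    (su_primeAct σ w).valuation K (σ x) = w.valuation K x :=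
  su_valuation_equiv (su_oEquiv σ) (σ : K ≃+* K) (fun _ => rfl) w x

/-- `σ w` lies over the same prime of `F` as `w`. -/
theorem su_under_act (σ : Gal(K/F)) (w : HeightOneSpectrum (𝓞 K)) :
    (su_primeAct σ w).under (𝓞 F) = w.under (𝓞 F) := by
  apply HeightOneSpectrum.ext
  ext y
  change (su_oEquiv σ).symm (algebraMap (𝓞 F) (𝓞 K) y) ∈ w.asIdeal ↔
    algebraMap (𝓞 F) (𝓞 K) y ∈ w.asIdeal
  have : (su_oEquiv σ).symm (algebraMap (𝓞 F) (𝓞 K) y) = algebraMap (𝓞 F) (𝓞 K) y := by
    rw [RingEquiv.symm_apply_eq, su_oEquiv_algebraMap]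
  rw [this]

theorem su_under_act_symm (σ : Gal(K/F)) (w : HeightOneSpectrum (𝓞 K)) :
    ((su_primeAct σ).symm w).under (𝓞 F) = w.under (𝓞 F) := by
  have := su_under_act (F := F) σ ((su_primeAct σ).symm w)
  rw [Equiv.apply_symm_apply] at this
  exact this.symm

variable (K) in
theorem su_finite_fiber (v : HeightOneSpectrum (𝓞 F)) :
    {w : HeightOneSpectrum (𝓞 K) | w.under (𝓞 F) = v}.Finite := by
  have : Finite (dn_fiber F K v) := dn_finite_fiber v
  exact Set.finite_coe_iff.mp this

variable (F K) in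
/-- The primes of `K` above a finite set `S` of primes of `F`. -/
noncomputable def su_primesAbove (S : Finset (HeightOneSpectrum (𝓞 F))) :
    Finset (HeightOneSpectrum (𝓞 K)) :=
  open Classical in
  S.biUnion fun v => (su_finite_fiber K v).toFinset

theorem su_mem_primesAbove {S : Finset (HeightOneSpectrum (𝓞 F))}
    {w : HeightOneSpectrum (𝓞 K)} : w ∈ su_primesAbove F K S ↔ w.under (𝓞 F) ∈ S := by
  classical
  simp [su_primesAbove]

theorem su_card_primesAbove (S : Finset (HeightOneSpectrum (𝓞 F))) :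
    (su_primesAbove F K S).card = ∑ v ∈ S, Nat.card (dn_fiber F K v) := by
  classical
  rw [su_primesAbove, Finset.card_biUnion]
  · refine Finset.sum_congr rfl fun v _ => ?_
    rw [← Set.ncard_eq_toFinset_card _ (su_finite_fiber K v), ← Nat.card_coe_set_eq]
    rfl
  · intro v _ v' _ hvv'
    rw [Function.onFun, Finset.disjoint_left]
    intro w hw hw'
    simp only [Set.Finite.mem_toFinset, Set.mem_ofPred_eq] at hw hw'
    exact hvv' (hw.symm.trans hw')

theorem su_primeAct_mem_primesAbove {S : Finset (HeightOneSpectrum (𝓞 F))} (σ : Gal(K/F))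
    {w : HeightOneSpectrum (𝓞 K)} :
    su_primeAct σ w ∈ su_primesAbove F K S ↔ w ∈ su_primesAbove F K S := by
  rw [su_mem_primesAbove, su_mem_primesAbove, su_under_act]

theorem su_primeAct_symm_mem_primesAbove {S : Finset (HeightOneSpectrum (𝓞 F))} (σ : Gal(K/F))
    {w : HeightOneSpectrum (𝓞 K)} :
    (su_primeAct σ).symm w ∈ su_primesAbove F K S ↔ w ∈ su_primesAbove F K S := by
  rw [su_mem_primesAbove, su_mem_primesAbove, su_under_act_symm]

variable (F K) in
/-- The group of `T`-units of `K`, `T` the set of primes of `K` above `S`. -/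
noncomputable abbrev su_ET (S : Finset (HeightOneSpectrum (𝓞 F))) : Subgroup Kˣ :=
  ((su_primesAbove F K S : Finset (HeightOneSpectrum (𝓞 K))) :
    Set (HeightOneSpectrum (𝓞 K))).unit K

theorem su_mem_ET {S : Finset (HeightOneSpectrum (𝓞 F))} {x : Kˣ} :
    x ∈ su_ET F K S ↔ ∀ w : HeightOneSpectrum (𝓞 K), w.under (𝓞 F) ∉ S →
      w.valuation K (x : K) = 1 := by
  constructor
  · intro hx w hw
    exact hx w (by simpa [su_mem_primesAbove] using hw)
  · intro hx w hw
    exact hx w (by simpa [su_mem_primesAbove] using hw)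

/-- The action of `σ ∈ Gal(K/F)` on the `T`-units. -/
noncomputable def su_unitHom (S : Finset (HeightOneSpectrum (𝓞 F))) (σ : Gal(K/F)) :
    su_ET F K S →* su_ET F K S where
  toFun x := ⟨Units.map (σ : K →* K) x.1, by
    rw [su_mem_ET]
    intro w hw
    have h1 := su_valuation_act σ ((su_primeAct σ).symm w) ((x.1 : Kˣ) : K)
    rw [Equiv.apply_symm_apply] at h1
    have h2 : ((Units.map (σ : K →* K) x.1 : Kˣ) : K) = σ ((x.1 : Kˣ) : K) := rfl
    rw [h2, h1]
    exact su_mem_ET.mp x.2 _ (by rwa [su_under_act_symm])⟩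
  map_one' := by
    apply Subtype.ext
    simp
  map_mul' x y := by
    apply Subtype.ext
    simp

@[simp] theorem su_unitHom_coe (S : Finset (HeightOneSpectrum (𝓞 F))) (σ : Gal(K/F))
    (x : su_ET F K S) : (((su_unitHom S σ x : su_ET F K S) : Kˣ) : K) = σ ((x : Kˣ) : K) := rfl

theorem su_unitHom_mul (S : Finset (HeightOneSpectrum (𝓞 F))) (g h : Gal(K/F))
    (x : su_ET F K S) : su_unitHom S (g * h) x = su_unitHom S g (su_unitHom S h x) := by
  apply Subtype.ext
  apply Units.ext
  simp

@[simp] theorem su_unitHom_one (S : Finset (HeightOneSpectrum (𝓞 F))) (x : su_ET F K S) :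
    su_unitHom S (1 : Gal(K/F)) x = x := by
  apply Subtype.ext
  apply Units.ext
  simp

/-- `θ u = u / σ u`. -/
noncomputable def su_theta (S : Finset (HeightOneSpectrum (𝓞 F))) (σ : Gal(K/F)) :
    su_ET F K S →* su_ET F K S :=
  MonoidHom.id _ / su_unitHom S σ

@[simp] theorem su_theta_apply (S : Finset (HeightOneSpectrum (𝓞 F))) (σ : Gal(K/F))
    (u : su_ET F K S) : su_theta S σ u = u / su_unitHom S σ u := rfl

/-- `ν u = ∏_{i < p} σ^i u`. -/
noncomputable def su_nu (S : Finset (HeightOneSpectrum (𝓞 F))) (σ : Gal(K/F)) (p : ℕ) :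
    su_ET F K S →* su_ET F K S :=
  ∏ i ∈ Finset.range p, su_unitHom S (σ ^ i)

@[simp] theorem su_nu_apply (S : Finset (HeightOneSpectrum (𝓞 F))) (σ : Gal(K/F)) (p : ℕ)
    (u : su_ET F K S) : su_nu S σ p u = ∏ i ∈ Finset.range p, su_unitHom S (σ ^ i) u := by
  simp [su_nu]

/-- The additive avatar of the Galois action on `T`-units. -/
noncomputable def su_tauAdd (S : Finset (HeightOneSpectrum (𝓞 F))) (σ : Gal(K/F)) :
    Module.End ℤ (Additive (su_ET F K S)) :=
  (MonoidHom.toAdditive (su_unitHom S σ)).toIntLinearMap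

@[simp] theorem su_tauAdd_apply (S : Finset (HeightOneSpectrum (𝓞 F))) (σ : Gal(K/F))
    (u : Additive (su_ET F K S)) :
    su_tauAdd S σ u = Additive.ofMul (su_unitHom S σ u.toMul) := rfl

theorem su_tauAdd_pow (S : Finset (HeightOneSpectrum (𝓞 F))) (σ : Gal(K/F)) (i : ℕ)
    (u : Additive (su_ET F K S)) :
    (su_tauAdd S σ ^ i) u = Additive.ofMul (su_unitHom S (σ ^ i) u.toMul) := by
  induction i with
  | zero => simp
  | succ i ih =>
    rw [pow_succ', Module.End.mul_apply, ih, pow_succ', su_unitHom_mul]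
    rfl

theorem su_one_sub_tauAdd (S : Finset (HeightOneSpectrum (𝓞 F))) (σ : Gal(K/F)) :
    (1 - su_tauAdd S σ) = (MonoidHom.toAdditive (su_theta S σ)).toIntLinearMap := by
  ext u
  simp [sub_eq_add_neg, div_eq_mul_inv]

theorem su_sum_tauAdd (S : Finset (HeightOneSpectrum (𝓞 F))) (σ : Gal(K/F)) (p : ℕ) :
    (∑ i ∈ Finset.range p, su_tauAdd S σ ^ i)
      = (MonoidHom.toAdditive (su_nu S σ p)).toIntLinearMap := by
  ext u
  simp [LinearMap.sum_apply, su_tauAdd_pow]

/-- The adic valuation of `K` at `w` restricted to `F` is trivial at `y` iff the valuation at the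
prime below is. -/
theorem su_valuation_algebraMap_eq_one (w : HeightOneSpectrum (𝓞 K)) (y : F) :
    w.valuation K (algebraMap F K y) = 1 ↔ (w.under (𝓞 F)).valuation F y = 1 := by
  have hlo : w.asIdeal.LiesOver (w.under (𝓞 F)).asIdeal := dn_liesOver_of_under_eq rfl
  have h := HeightOneSpectrum.valuation_liesOver K (w.under (𝓞 F)) w y
  have he : (w.under (𝓞 F)).asIdeal.ramificationIdx' w.asIdeal ≠ 0 :=
    Ideal.IsDedekindDomain.ramificationIdx'_ne_zero_of_liesOver w.asIdeal (w.under (𝓞 F)).ne_bot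
  rw [← h]
  exact pow_eq_one_iff_left he

variable (K) in
/-- The inclusion of the `S`-units of `F` into the `T`-units of `K`. -/
noncomputable def su_unitIncl (S : Finset (HeightOneSpectrum (𝓞 F))) :
    ((S : Set (HeightOneSpectrum (𝓞 F))).unit F) →* su_ET F K S where
  toFun y := ⟨Units.map (algebraMap F K : F →* K) y.1, by
    rw [su_mem_ET]
    intro w hw
    have h2 : ((Units.map (algebraMap F K : F →* K) y.1 : Kˣ) : K)
        = algebraMap F K ((y.1 : Fˣ) : F) := rfl
    rw [h2, su_valuation_algebraMap_eq_one]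
    exact y.2 _ hw⟩
  map_one' := by
    apply Subtype.ext
    simp
  map_mul' x y := by
    apply Subtype.ext
    simp

@[simp] theorem su_unitIncl_coe (S : Finset (HeightOneSpectrum (𝓞 F)))
    (y : (S : Set (HeightOneSpectrum (𝓞 F))).unit F) :
    (((su_unitIncl K S y : su_ET F K S) : Kˣ) : K) = algebraMap F K ((y : Fˣ) : F) := rfl

theorem su_unitIncl_injective (S : Finset (HeightOneSpectrum (𝓞 F))) :
    Function.Injective (su_unitIncl K S) := by
  intro x y hxy
  have h1 : algebraMap F K ((x : Fˣ) : F) = algebraMap F K ((y : Fˣ) : F) := by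
    rw [← su_unitIncl_coe, ← su_unitIncl_coe, hxy]
  exact Subtype.ext (Units.ext ((algebraMap F K).injective h1))

theorem su_unitHom_unitIncl (S : Finset (HeightOneSpectrum (𝓞 F))) (σ : Gal(K/F))
    (y : (S : Set (HeightOneSpectrum (𝓞 F))).unit F) :
    su_unitHom S σ (su_unitIncl K S y) = su_unitIncl K S y := by
  apply Subtype.ext
  apply Units.ext
  rw [su_unitHom_coe, su_unitIncl_coe, AlgEquiv.commutes]

variable [IsGalois F K]

/-- A `T`-unit of `K` fixed by the whole Galois group comes from an `S`-unit of `F`. -/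
theorem su_unit_of_fixed (S : Finset (HeightOneSpectrum (𝓞 F))) (u : su_ET F K S)
    (hu : ∀ g : Gal(K/F), su_unitHom S g u = u) :
    ∃ y : (S : Set (HeightOneSpectrum (𝓞 F))).unit F, su_unitIncl K S y = u := by
  have h1 : ∀ g : Gal(K/F), g ((u : Kˣ) : K) = ((u : Kˣ) : K) := fun g => by
    have := congrArg (fun z : su_ET F K S => ((z : Kˣ) : K)) (hu g)
    simpa using this
  have h2 : ((u : Kˣ) : K) ∈ (⊥ : IntermediateField F K) :=
    (IsGalois.mem_bot_iff_fixed _).mpr h1
  obtain ⟨y, hy⟩ := IntermediateField.mem_bot.mp h2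
  have hy0 : y ≠ 0 := by
    rintro rfl
    rw [map_zero] at hy
    exact (u : Kˣ).ne_zero hy.symm
  refine ⟨⟨Units.mk0 y hy0, ?_⟩, ?_⟩
  · intro v hv
    -- pick a prime of `K` above `v`
    have hne : Nonempty (dn_fiber F K v) := by
      have := v.isPrime
      obtain ⟨⟨Q, hQ1, hQ2⟩⟩ := v.asIdeal.nonempty_primesOver (S := 𝓞 K)
      exact ⟨(dn_fiberEquiv K v).symm ⟨Q, hQ1, hQ2⟩⟩
    obtain ⟨⟨w, hw⟩⟩ := hne
    have h3 := (su_valuation_algebraMap_eq_one w y).mp (by
      rw [hy]
      exact su_mem_ET.mp u.2 w (by rw [hw]; exact hv))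
    rw [hw] at h3
    exact h3
  · apply Subtype.ext
    apply Units.ext
    rw [su_unitIncl_coe]
    exact hy

/-- The rank of the fixed part of the `T`-units under a generator `σ` of the Galois group is the
rank of the `S`-units of `F`. -/
theorem su_finrank_fixed (S : Finset (HeightOneSpectrum (𝓞 F))) (σ : Gal(K/F))
    (hσ : ∀ g : Gal(K/F), g ∈ Subgroup.zpowers σ) :
    finrank ℤ (LinearMap.ker (1 - su_tauAdd S σ))
      = finrank ℤ (Additive ((S : Set (HeightOneSpectrum (𝓞 F))).unit F)) := by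
  let j : Additive ((S : Set (HeightOneSpectrum (𝓞 F))).unit F) →ₗ[ℤ] Additive (su_ET F K S) :=
    (MonoidHom.toAdditive (su_unitIncl K S)).toIntLinearMap
  have hj : Function.Injective j := fun x y hxy =>
    Additive.toMul.injective (su_unitIncl_injective S (congrArg Additive.toMul hxy))
  have hrange : LinearMap.range j = LinearMap.ker (1 - su_tauAdd S σ) := by
    apply le_antisymm
    · rintro _ ⟨y, rfl⟩
      rw [LinearMap.mem_ker, LinearMap.sub_apply, Module.End.one_apply, sub_eq_zero]
      change Additive.ofMul (su_unitIncl K S y.toMul)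
        = Additive.ofMul (su_unitHom S σ (su_unitIncl K S y.toMul))
      rw [su_unitHom_unitIncl]
    · intro x hx
      rw [LinearMap.mem_ker, LinearMap.sub_apply, Module.End.one_apply, sub_eq_zero] at hx
      have hfix : su_unitHom S σ x.toMul = x.toMul := by
        have := congrArg Additive.toMul hx
        simpa using this.symm
      have hall : ∀ g : Gal(K/F), su_unitHom S g x.toMul = x.toMul := by
        intro g
        obtain ⟨n, rfl⟩ := Subgroup.mem_zpowers_iff.mp (hσ g)
        have hpow : ∀ i : ℕ, su_unitHom S (σ ^ i) x.toMul = x.toMul := by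
          intro i
          induction i with
          | zero => simp
          | succ i ih => rw [pow_succ', su_unitHom_mul, ih, hfix]
        have hinv : ∀ h : Gal(K/F), su_unitHom S h x.toMul = x.toMul →
            su_unitHom S h⁻¹ x.toMul = x.toMul := by
          intro h hh
          conv_lhs => rw [← hh]
          rw [← su_unitHom_mul, inv_mul_cancel, su_unitHom_one]
        rcases Int.eq_nat_or_neg n with ⟨i, rfl | rfl⟩
        · rw [zpow_natCast]; exact hpow i
        · rw [zpow_neg, zpow_natCast]; exact hinv _ (hpow i)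
      obtain ⟨y, hy⟩ := su_unit_of_fixed S x.toMul hall
      exact ⟨Additive.ofMul y, congrArg Additive.ofMul hy⟩
  rw [← hrange]
  exact (LinearEquiv.ofInjective j hj).finrank_eq.symm

end NF

section Torsion

/-- A unit of finite order of a number field is killed by `torsionOrder K`. -/
theorem su_torsion_pow {K : Type*} [Field K] [NumberField K] (x : Kˣ) (n : ℤ) (hn : n ≠ 0)
    (hx : x ^ n = 1) : x ^ (Units.torsionOrder K : ℕ) = 1 := by
  -- reduce to a positive natural exponent
  obtain ⟨m, hm, hxm⟩ : ∃ m : ℕ, 0 < m ∧ x ^ m = 1 := by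
    refine ⟨n.natAbs, Int.natAbs_pos.mpr hn, ?_⟩
    rcases Int.natAbs_eq n with h | h
    · rw [← zpow_natCast, ← h]; exact hx
    · have : x ^ (-(n.natAbs : ℤ)) = 1 := by rw [← h]; exact hx
      rw [zpow_neg, inv_eq_one, zpow_natCast] at this
      exact this
  have hint : IsIntegral ℤ ((x : Kˣ) : K) := by
    apply IsIntegral.of_pow hm
    rw [← Units.val_pow_eq_pow_val, hxm]
    exact isIntegral_one
  have hint' : IsIntegral ℤ ((x⁻¹ : Kˣ) : K) := by
    apply IsIntegral.of_pow hm
    rw [← Units.val_pow_eq_pow_val, inv_pow, hxm, inv_one]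
    exact isIntegral_one
  let a : 𝓞 K := ⟨x, hint⟩
  let b : 𝓞 K := ⟨(x⁻¹ : Kˣ), hint'⟩
  have hab : a * b = 1 := by
    apply RingOfIntegers.ext
    change ((x : Kˣ) : K) * ((x⁻¹ : Kˣ) : K) = 1
    rw [← Units.val_mul, mul_inv_cancel, Units.val_one]
  let u : (𝓞 K)ˣ := ⟨a, b, hab, by rw [mul_comm]; exact hab⟩
  have hpow : ∀ k : ℕ, (((u ^ k : (𝓞 K)ˣ) : 𝓞 K) : K) = ((x ^ k : Kˣ) : K) := by
    intro k
    rw [Units.val_pow_eq_pow_val, Units.val_pow_eq_pow_val]
    change algebraMap (𝓞 K) K ((u : 𝓞 K) ^ k) = _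
    rw [map_pow]
    rfl
  have hu : u ^ m = 1 := by
    apply Units.ext
    apply RingOfIntegers.ext
    rw [hpow, hxm]
    rfl
  have hut : u ∈ Units.torsion K := by
    rw [Units.torsion, CommGroup.mem_torsion, isOfFinOrder_iff_pow_eq_one]
    exact ⟨m, hm, hu⟩
  rw [← Units.rootsOfUnity_eq_torsion, mem_rootsOfUnity] at hut
  apply Units.ext
  rw [← hpow, hut]
  rfl

/-- Additive form for any subgroup of `Kˣ`: the torsion is killed by `torsionOrder K`. -/
theorem su_htors {K : Type*} [Field K] [NumberField K] (E : Subgroup Kˣ)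
    (x : Additive E) (n : ℤ) (hn : n ≠ 0) (hx : n • x = 0) :
    ((Units.torsionOrder K : ℕ) : ℤ) • x = 0 := by
  have h1 : (x.toMul : E) ^ n = 1 := by
    have := congrArg Additive.toMul hx
    simpa using this
  have h2 : ((x.toMul : E) : Kˣ) ^ n = 1 := by
    have := congrArg (fun z : E => (z : Kˣ)) h1
    simpa using this
  have h3 := su_torsion_pow _ n hn h2
  rw [natCast_zsmul]
  apply Additive.toMul.injective
  apply Subtype.ext
  simpa using h3

end Torsion

section TauPow

variable {F K : Type*} [Field F] [NumberField F] [Field K] [NumberField K] [Algebra F K]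

theorem su_tauAdd_pow_eq_one (S : Finset (HeightOneSpectrum (𝓞 F))) (σ : Gal(K/F)) (p : ℕ)
    (hσp : σ ^ p = 1) : su_tauAdd S σ ^ p = 1 := by
  ext u
  rw [su_tauAdd_pow, hσp]
  simp

end TauPow

end Fermat.Agent.S55
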