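import Mathlib
import Fermat.Agent.S14.FirstIneq.Lattice

/-!
# S55 / S-unit block, part 1: exact Herbrand quotient of a lattice with an automorphism of
prime order

For a finitely generated `ℤ`-module `M` with an endomorphism `τ` with `τ ^ p = 1` (`p` prime),
`θ = 1 - τ`, `ν = 1 + τ + ... + τ^(p-1)`, `a = rank ker θ`: there is `b` with
`rank M = a + b (p - 1)` and `p ^ b * [ker θ : im ν] = p ^ a * [ker ν : im θ]`, both indices
being nonzero.  (S14's `fi_lattice_herbrand` is the inequality form; exactness needs the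
cyclotomic unit `p / (ζ - 1)^(p-1)`.)
-/

namespace Fermat.Agent.S55

open Polynomial Module Fermat.Agent.S14

set_option linter.unusedSectionVars false
set_option linter.style.haveILetI false

/-- In a domain containing a primitive `p`-th root of unity `ζ`, `(ζ - 1)^(p-1)` is associated
to `p`. -/
theorem su_assoc_sub_one_pow {A : Type*} [CommRing A] [IsDomain A] (p : ℕ) [hp : Fact p.Prime]
    {ζ : A} (hζ : IsPrimitiveRoot ζ p) :
    Associated ((ζ - 1) ^ (p - 1)) (p : A) := by
  rw [← eval_one_cyclotomic_prime (R := A) (p := p),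
    cyclotomic_eq_prod_X_sub_primitiveRoots hζ, eval_prod]
  simp only [eval_sub, eval_X, eval_C]
  rw [← Nat.totient_prime hp.out, ← hζ.card_primitiveRoots, ← Finset.prod_const]
  refine Associated.prod _ _ _ fun η hη ↦ ?_
  have hη' : IsPrimitiveRoot η p := isPrimitiveRoot_of_mem_primitiveRoots hη
  haveI : NeZero p := ⟨hp.out.ne_zero⟩
  obtain ⟨i, -, hi, hζη⟩ := hζ.isPrimitiveRoot_iff.mp hη'
  rw [← hζη]
  simpa using (hζ.associated_sub_one_pow_sub_one_of_coprime hi).neg_right

/-- `p / (X - 1)^(p-1)` is a unit modulo `Φ_p`: polynomial form. -/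
theorem su_cyclo_unit (p : ℕ) [hp : Fact p.Prime] :
    ∃ V W : ℤ[X], (X - 1) ^ (p - 1) * V = C (p : ℤ) + (∑ i ∈ Finset.range p, X ^ i) * W := by
  have hirr : Irreducible (cyclotomic p ℤ) := cyclotomic.irreducible hp.out.pos
  have hprime : Prime (cyclotomic p ℤ) := hirr.prime
  haveI : IsDomain (AdjoinRoot (cyclotomic p ℤ)) := AdjoinRoot.isDomain_of_prime hprime
  set A := AdjoinRoot (cyclotomic p ℤ) with hA
  have hinj : Function.Injective (algebraMap ℤ A) := by
    apply AdjoinRoot.of.injective_of_degree_ne_zero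
    rw [degree_cyclotomic, Nat.totient_prime hp.out]
    have := hp.out.two_le
    intro h
    have : ((p - 1 : ℕ) : WithBot ℕ) = 0 := h
    norm_cast at this
    omega
  haveI : CharZero A := by
    refine ⟨fun a b hab => ?_⟩
    have : algebraMap ℤ A (a : ℤ) = algebraMap ℤ A (b : ℤ) := by simpa using hab
    exact_mod_cast hinj this
  haveI : NeZero ((p : ℕ) : A) := ⟨by exact_mod_cast hp.out.ne_zero⟩
  have hroot : IsPrimitiveRoot (AdjoinRoot.root (cyclotomic p ℤ)) p := by
    rw [← isRoot_cyclotomic_iff, IsRoot.def]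
    have := AdjoinRoot.eval₂_root (cyclotomic p ℤ)
    rw [← map_cyclotomic_int p A, eval_map]
    exact this
  obtain ⟨u, hu⟩ := su_assoc_sub_one_pow p hroot
  obtain ⟨V, hV⟩ := AdjoinRoot.mk_surjective (u : A)
  have h1 : AdjoinRoot.mk (cyclotomic p ℤ) ((X - 1) ^ (p - 1) * V - C (p : ℤ)) = 0 := by
    rw [map_sub, map_mul, map_pow, map_sub, map_one, AdjoinRoot.mk_X, hV, hu]
    simp
  rw [AdjoinRoot.mk_eq_zero] at h1
  obtain ⟨W, hW⟩ := h1
  refine ⟨V, W, ?_⟩
  rw [← cyclotomic_prime ℤ p, ← hW]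
  ring

section Det

variable {B : Type*} [AddCommGroup B] [Module.Free ℤ B] [Module.Finite ℤ B]

/-- Exact determinant computation: if `1 + τ + ... + τ^(p-1) = 0` on a lattice `B`, then
`1 - τ` is injective, `|det (1 - τ)| = p ^ c` and `rank B = c * (p - 1)`. -/
theorem su_det_one_sub (p : ℕ) [hp : Fact p.Prime] (τ : Module.End ℤ B)
    (hν : ∑ i ∈ Finset.range p, τ ^ i = 0) :
    Function.Injective (1 - τ : Module.End ℤ B) ∧
      ∃ c : ℕ, (LinearMap.det (1 - τ)).natAbs = p ^ c ∧ finrank ℤ B = c * (p - 1) := by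
  obtain ⟨hinj, c, hc, hle⟩ := fi_det_one_sub p τ hν
  refine ⟨hinj, c, hc, le_antisymm hle ?_⟩
  obtain ⟨V, W, hVW⟩ := su_cyclo_unit p
  have h1 := congrArg (Polynomial.aeval τ) hVW
  simp only [map_pow, map_sub, map_one, aeval_X, map_add, map_sum, map_mul, hν, zero_mul,
    add_zero, map_natCast] at h1
  -- h1 : (τ - 1)^(p-1) * V(τ) = p
  have hdetp : LinearMap.det ((p : Module.End ℤ B)) = (p : ℤ) ^ finrank ℤ B := by
    have : (p : Module.End ℤ B) = (p : ℤ) • (1 : Module.End ℤ B) := by
      ext x; simp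
    rw [this, LinearMap.det_smul, map_one, mul_one]
  have h2 : LinearMap.det (τ - 1) ^ (p - 1) * LinearMap.det (Polynomial.aeval τ V)
      = (p : ℤ) ^ finrank ℤ B := by
    rw [← map_pow, ← map_mul, h1, hdetp]
  have h3 : (LinearMap.det (τ - 1)).natAbs = p ^ c := by
    have : (τ - 1 : Module.End ℤ B) = (-1 : ℤ) • (1 - τ) := by
      rw [neg_smul, one_smul, neg_sub]
    rw [← hc, this, LinearMap.det_smul, Int.natAbs_mul, Int.natAbs_pow]
    simp
  have h4 : (p ^ c) ^ (p - 1) ∣ p ^ finrank ℤ B := by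
    have := congrArg Int.natAbs h2
    rw [Int.natAbs_mul, Int.natAbs_pow, h3, Int.natAbs_pow, Int.natAbs_natCast] at this
    exact Dvd.intro _ this
  rw [← pow_mul] at h4
  exact (Nat.pow_dvd_pow_iff_le_right hp.out.one_lt).mp h4

/-- **Exact Herbrand quotient of a lattice** with an endomorphism of prime order `p`. -/
theorem su_lattice_herbrand (p : ℕ) [hp : Fact p.Prime] (τ : Module.End ℤ B) (hτ : τ ^ p = 1) :
    ∃ b : ℕ, finrank ℤ B = finrank ℤ (LinearMap.ker (1 - τ)) + b * (p - 1) ∧
      (LinearMap.range (∑ i ∈ Finset.range p, τ ^ i)).toAddSubgroup.relIndex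
        (LinearMap.ker (1 - τ)).toAddSubgroup ≠ 0 ∧
      (LinearMap.range (1 - τ)).toAddSubgroup.relIndex
        (LinearMap.ker (∑ i ∈ Finset.range p, τ ^ i)).toAddSubgroup ≠ 0 ∧
      p ^ b * (LinearMap.range (∑ i ∈ Finset.range p, τ ^ i)).toAddSubgroup.relIndex
          (LinearMap.ker (1 - τ)).toAddSubgroup
        = p ^ finrank ℤ (LinearMap.ker (1 - τ)) *
          (LinearMap.range (1 - τ)).toAddSubgroup.relIndex
            (LinearMap.ker (∑ i ∈ Finset.range p, τ ^ i)).toAddSubgroup := by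
  set ν : Module.End ℤ B := ∑ i ∈ Finset.range p, τ ^ i with hνdef
  set θ : Module.End ℤ B := 1 - τ with hθdef
  have hθν : θ * ν = 0 := by rw [hθdef, hνdef, mul_neg_geom_sum, hτ, sub_self]
  have hνθ : ν * θ = 0 := by rw [hθdef, hνdef, geom_sum_mul_neg, hτ, sub_self]
  have hθν' : ∀ x, θ.toAddMonoidHom (ν.toAddMonoidHom x) = 0 := fun x => by
    have := LinearMap.congr_fun hθν x
    simpa using this
  have hνθ' : ∀ x, ν.toAddMonoidHom (θ.toAddMonoidHom x) = 0 := fun x => by
    have := LinearMap.congr_fun hνθ x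
    simpa using this
  have E1 := fi_add_index_sup_ker_mul θ.toAddMonoidHom ν.toAddMonoidHom hθν'
  have E2 := fi_add_index_sup_ker_mul ν.toAddMonoidHom θ.toAddMonoidHom hνθ'
  rw [← LinearMap.ker_toAddSubgroup, ← LinearMap.ker_toAddSubgroup,
    ← LinearMap.range_toAddSubgroup] at E1 E2
  rw [sup_comm] at E2
  set m := ((LinearMap.ker θ).toAddSubgroup ⊔ (LinearMap.ker ν).toAddSubgroup).index
  set h0 := (LinearMap.range ν).toAddSubgroup.relIndex (LinearMap.ker θ).toAddSubgroup
  set h1 := (LinearMap.range θ).toAddSubgroup.relIndex (LinearMap.ker ν).toAddSubgroup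
  -- (T3)
  have hτfix : ∀ x ∈ LinearMap.ker θ, τ x = x := by
    intro x hx
    have : θ x = 0 := hx
    rw [hθdef, LinearMap.sub_apply, Module.End.one_apply, sub_eq_zero] at this
    exact this.symm
  have hνfix : ∀ x ∈ LinearMap.ker θ, ν x = (p : ℤ) • x := by
    intro x hx
    have hpow : ∀ i : ℕ, (τ ^ i) x = x := by
      intro i
      induction i with
      | zero => simp
      | succ i ih => rw [pow_succ, Module.End.mul_apply, hτfix x hx, ih]
    rw [hνdef, LinearMap.sum_apply]
    simp [hpow]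
  have T3 : ((LinearMap.ker θ).toAddSubgroup.map ν.toAddMonoidHom).relIndex
      (LinearMap.ker θ).toAddSubgroup = p ^ finrank ℤ (LinearMap.ker θ) := by
    rw [fi_relIndex_map_eq_index (LinearMap.ker θ) ν ((p : ℤ) • (1 : Module.End ℤ _))
      (fun x => by simp [hνfix x x.2]),
      fi_index_range_eq_natAbs_det, LinearMap.det_smul, map_one, mul_one, Int.natAbs_pow,
      Int.natAbs_natCast]
    intro x y hxy
    have : (p : ℤ) • (x - y) = 0 := by
      simpa [smul_sub, sub_eq_zero] using hxy
    rcases smul_eq_zero.mp this with h3 | h3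
    · exact absurd h3 (by exact_mod_cast hp.out.ne_zero)
    · exact sub_eq_zero.mp h3
  -- (T4)
  have hcomm : ν * τ = τ * ν := by
    rw [hνdef, Finset.sum_mul, Finset.mul_sum]
    exact Finset.sum_congr rfl fun i _ => by rw [← pow_succ, ← pow_succ']
  have hstab : ∀ x ∈ LinearMap.ker ν, τ x ∈ LinearMap.ker ν := by
    intro x hx
    rw [LinearMap.mem_ker] at hx ⊢
    have := LinearMap.congr_fun hcomm x
    rw [Module.End.mul_apply, Module.End.mul_apply, hx, map_zero] at this
    exact this
  set τ₀ : Module.End ℤ (LinearMap.ker ν) := τ.restrict hstab with hτ₀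
  have hpow₀ : ∀ (i : ℕ) (x : LinearMap.ker ν), (((τ₀ ^ i) x : LinearMap.ker ν) : B)
      = (τ ^ i) x := by
    intro i
    induction i with
    | zero => intro x; simp
    | succ i ih =>
      intro x
      rw [pow_succ, Module.End.mul_apply, ih, pow_succ, Module.End.mul_apply]
      rfl
  have hν₀ : ∑ i ∈ Finset.range p, τ₀ ^ i = 0 := by
    ext x
    rw [LinearMap.sum_apply]
    simp only [LinearMap.zero_apply, ZeroMemClass.coe_zero, AddSubmonoidClass.coe_finsetSum,
      hpow₀]
    have h := x.2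
    rw [LinearMap.mem_ker] at h
    rw [← h]
    exact (LinearMap.sum_apply _ _ _).symm
  obtain ⟨hinj, c, hc, hbc⟩ := su_det_one_sub p τ₀ hν₀
  have T4 : ((LinearMap.ker ν).toAddSubgroup.map θ.toAddMonoidHom).relIndex
      (LinearMap.ker ν).toAddSubgroup = p ^ c := by
    rw [fi_relIndex_map_eq_index (LinearMap.ker ν) θ (1 - τ₀)
      (fun x => by simp [hθdef, hτ₀]), fi_index_range_eq_natAbs_det _ hinj, hc]
  -- ranks
  have hrank : finrank ℤ (LinearMap.ker ν) + finrank ℤ (LinearMap.range ν) = finrank ℤ B := by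
    rw [← ν.quotKerEquivRange.finrank_eq, add_comm]
    exact Submodule.finrank_quotient_add_finrank _
  have hrange_le : finrank ℤ (LinearMap.range ν) ≤ finrank ℤ (LinearMap.ker θ) := by
    apply Submodule.finrank_mono
    rintro _ ⟨x, rfl⟩
    have := LinearMap.congr_fun hθν x
    simpa using this
  have hrange_ge : finrank ℤ (LinearMap.ker θ) ≤ finrank ℤ (LinearMap.range ν) := by
    -- `x ↦ ν x` is injective from `ker θ` into `range ν`
    let f : LinearMap.ker θ →ₗ[ℤ] LinearMap.range ν :=
      LinearMap.codRestrict _ (ν ∘ₗ (LinearMap.ker θ).subtype) (fun x => ⟨x, rfl⟩)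
    apply LinearMap.finrank_le_finrank_of_injective (f := f)
    intro x y hxy
    have h1 : ν (x : B) = ν (y : B) := congrArg Subtype.val hxy
    rw [hνfix x x.2, hνfix y y.2] at h1
    have : (p : ℤ) • ((x : B) - y) = 0 := by rw [smul_sub, h1, sub_self]
    rcases smul_eq_zero.mp this with h3 | h3
    · exact absurd h3 (by exact_mod_cast hp.out.ne_zero)
    · exact Subtype.ext (sub_eq_zero.mp h3)
  have hrange_eq : finrank ℤ (LinearMap.range ν) = finrank ℤ (LinearMap.ker θ) :=
    le_antisymm hrange_le hrange_ge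
  rw [T3] at E1
  rw [T4] at E2
  have hmpos : m ≠ 0 := by
    intro h
    rw [h, zero_mul] at E1
    exact (pow_ne_zero _ hp.out.ne_zero) E1.symm
  have h0pos : h0 ≠ 0 := by
    intro h
    rw [h, mul_zero] at E1
    exact (pow_ne_zero _ hp.out.ne_zero) E1.symm
  have h1pos : h1 ≠ 0 := by
    intro h
    rw [h, mul_zero] at E2
    exact (pow_ne_zero _ hp.out.ne_zero) E2.symm
  refine ⟨c, ?_, h0pos, h1pos, ?_⟩
  · rw [← hrank, hrange_eq, hbc, add_comm]
  · have : m * (p ^ c * h0) = m * (p ^ finrank ℤ (LinearMap.ker θ) * h1) := by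
      calc m * (p ^ c * h0) = p ^ c * (m * h0) := by ring
        _ = p ^ c * p ^ finrank ℤ (LinearMap.ker θ) := by rw [E1]
        _ = p ^ finrank ℤ (LinearMap.ker θ) * (m * h1) := by rw [E2]; ring
        _ = m * (p ^ finrank ℤ (LinearMap.ker θ) * h1) := by ring
    exact Nat.eq_of_mul_eq_mul_left (Nat.pos_of_ne_zero hmpos) this

end Det

section ModuleVersion

/-- **Exact Herbrand quotient** for a finitely generated `ℤ`-module with an endomorphism of
prime order `p` (torsion allowed; `w` kills the torsion). -/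
theorem su_module_herbrand {M : Type*} [AddCommGroup M] [Module.Finite ℤ M]
    (p : ℕ) [hp : Fact p.Prime] (τ : Module.End ℤ M) (hτ : τ ^ p = 1)
    (w : ℤ) (hw : w ≠ 0) (htors : ∀ (x : M) (n : ℤ), n ≠ 0 → n • x = 0 → w • x = 0) :
    ∃ b : ℕ, finrank ℤ M = finrank ℤ (LinearMap.ker (1 - τ)) + b * (p - 1) ∧
      (LinearMap.range (∑ i ∈ Finset.range p, τ ^ i)).toAddSubgroup.relIndex
        (LinearMap.ker (1 - τ)).toAddSubgroup ≠ 0 ∧
      (LinearMap.range (1 - τ)).toAddSubgroup.relIndex
        (LinearMap.ker (∑ i ∈ Finset.range p, τ ^ i)).toAddSubgroup ≠ 0 ∧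
      p ^ b * (LinearMap.range (∑ i ∈ Finset.range p, τ ^ i)).toAddSubgroup.relIndex
          (LinearMap.ker (1 - τ)).toAddSubgroup
        = p ^ finrank ℤ (LinearMap.ker (1 - τ)) *
          (LinearMap.range (1 - τ)).toAddSubgroup.relIndex
            (LinearMap.ker (∑ i ∈ Finset.range p, τ ^ i)).toAddSubgroup := by
  set φ : Module.End ℤ M := w • (1 : Module.End ℤ M) with hφ
  set A : Submodule ℤ M := LinearMap.range φ with hA
  have hφx : ∀ x, φ x = w • x := fun x => by simp [hφ]
  -- torsion-free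
  have : Module.IsTorsionFree ℤ A := by
    apply Module.IsTorsionFree.of_smul_eq_zero
    rintro r ⟨_, ⟨y, rfl⟩⟩ h
    by_cases hr : r = 0
    · exact Or.inl hr
    right
    have h1 : r • φ y = 0 := by
      have := congrArg Subtype.val h
      simpa using this
    rw [hφx, smul_smul] at h1
    have h2 := htors y (r * w) (mul_ne_zero hr hw) h1
    ext
    simpa [hφx] using h2
  have : Module.Free ℤ A := Module.free_of_finite_type_torsion_free'
  -- stability
  have hstab : ∀ x ∈ A, τ x ∈ A := by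
    rintro _ ⟨y, rfl⟩
    exact ⟨τ y, by rw [hφx, hφx, map_smul]⟩
  set τA : Module.End ℤ A := τ.restrict hstab with hτA
  have hpowA : ∀ (i : ℕ) (x : A), (((τA ^ i) x : A) : M) = (τ ^ i) x := by
    intro i
    induction i with
    | zero => intro x; simp
    | succ i ih =>
      intro x
      rw [pow_succ, Module.End.mul_apply, ih, pow_succ, Module.End.mul_apply]
      rfl
  have hτAp : τA ^ p = 1 := by
    ext x
    rw [hpowA, hτ]
    simp
  -- ranks
  have hkerφ : finrank ℤ (LinearMap.ker φ) = 0 := by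
    apply Module.IsTorsion.finrank_eq_zero
    intro x
    refine ⟨⟨w, mem_nonZeroDivisors_of_ne_zero hw⟩, ?_⟩
    ext
    have := x.2
    rw [LinearMap.mem_ker, hφx] at this
    simpa using this
  have hrankA : finrank ℤ A = finrank ℤ M := by
    have h1 : finrank ℤ (M ⧸ LinearMap.ker φ) + finrank ℤ (LinearMap.ker φ) = finrank ℤ M :=
      Submodule.finrank_quotient_add_finrank _
    rw [hkerφ, add_zero, φ.quotKerEquivRange.finrank_eq] at h1
    exact h1
  have hkerA_le : finrank ℤ (LinearMap.ker (1 - τA)) ≤ finrank ℤ (LinearMap.ker (1 - τ)) := by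
    let f : LinearMap.ker (1 - τA) →ₗ[ℤ] LinearMap.ker (1 - τ) :=
      LinearMap.codRestrict _ (A.subtype ∘ₗ (LinearMap.ker (1 - τA)).subtype) (by
        intro x
        have h1 : (1 - τA) (x : A) = 0 := x.2
        have h2 : (((1 - τA) (x : A) : A) : M) = 0 := by rw [h1]; rfl
        rw [LinearMap.mem_ker]
        simp only [LinearMap.sub_apply, Module.End.one_apply, Submodule.coe_sub, hτA,
          LinearMap.coe_restrict_apply] at h2
        simpa using h2)
    apply LinearMap.finrank_le_finrank_of_injective (f := f)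
    intro x y hxy
    have h := congrArg Subtype.val hxy
    have : ((x : A) : M) = ((y : A) : M) := h
    exact Subtype.ext (Subtype.ext this)
  have hkerA_ge : finrank ℤ (LinearMap.ker (1 - τ)) ≤ finrank ℤ (LinearMap.ker (1 - τA)) := by
    -- multiplication by `w` maps `ker (1 - τ)` to `ker (1 - τA)` with torsion kernel
    have hmem : ∀ x : LinearMap.ker (1 - τ), (⟨φ x, ⟨x, rfl⟩⟩ : A) ∈ LinearMap.ker (1 - τA) := by
      intro x
      rw [LinearMap.mem_ker]
      ext
      have h1 : (1 - τ) (x : M) = 0 := x.2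
      simp only [LinearMap.sub_apply, Module.End.one_apply, Submodule.coe_sub, hτA,
        LinearMap.coe_restrict_apply, ZeroMemClass.coe_zero]
      rw [hφx, map_smul, ← smul_sub]
      have : (x : M) - τ x = 0 := by
        rw [LinearMap.sub_apply, Module.End.one_apply] at h1
        exact h1
      rw [this, smul_zero]
    let g : LinearMap.ker (1 - τ) →ₗ[ℤ] LinearMap.ker (1 - τA) :=
      { toFun := fun x => ⟨⟨φ x, ⟨x, rfl⟩⟩, hmem x⟩
        map_add' := fun x y => by
          ext
          simp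
        map_smul' := fun r x => by
          ext
          simp }
    have hkerg : finrank ℤ (LinearMap.ker g) = 0 := by
      apply Module.IsTorsion.finrank_eq_zero
      intro x
      refine ⟨⟨w, mem_nonZeroDivisors_of_ne_zero hw⟩, ?_⟩
      have h1 : g x = 0 := x.2
      have h2 : φ ((x : LinearMap.ker (1 - τ)) : M) = 0 := by
        have := congrArg (fun z : LinearMap.ker (1 - τA) => ((z : A) : M)) h1
        exact this
      rw [hφx] at h2
      ext
      simpa using h2
    have h1 : finrank ℤ (LinearMap.ker (1 - τ) ⧸ LinearMap.ker g) + finrank ℤ (LinearMap.ker g)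
        = finrank ℤ (LinearMap.ker (1 - τ)) := Submodule.finrank_quotient_add_finrank _
    rw [hkerg, add_zero, g.quotKerEquivRange.finrank_eq] at h1
    rw [← h1]
    exact Submodule.finrank_le _
  have hkerA : finrank ℤ (LinearMap.ker (1 - τA)) = finrank ℤ (LinearMap.ker (1 - τ)) :=
    le_antisymm hkerA_le hkerA_ge
  obtain ⟨b, hb, hY0, hY1, hlat⟩ := su_lattice_herbrand p τA hτAp
  -- finite index
  have hidx : A.toAddSubgroup.index ≠ 0 := by
    have : Finite (M ⧸ A) := by
      apply Module.finite_of_fg_torsion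
      intro x
      refine ⟨⟨w, mem_nonZeroDivisors_of_ne_zero hw⟩, ?_⟩
      obtain ⟨y, rfl⟩ := Submodule.Quotient.mk_surjective _ x
      rw [Submonoid.mk_smul, ← Submodule.Quotient.mk_smul, Submodule.Quotient.mk_eq_zero]
      exact ⟨y, hφx y⟩
    rw [AddSubgroup.index_eq_card]
    exact (Nat.card_pos (α := M ⧸ A)).ne'
  have hθν : ∀ x, (1 - τ).toAddMonoidHom ((∑ i ∈ Finset.range p, τ ^ i).toAddMonoidHom x) = 0 := by
    intro x
    have h : (1 - τ) * (∑ i ∈ Finset.range p, τ ^ i) = 0 := by
      rw [mul_neg_geom_sum, hτ, sub_self]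
    have := LinearMap.congr_fun h x
    simpa using this
  have hνθ : ∀ x, (∑ i ∈ Finset.range p, τ ^ i).toAddMonoidHom ((1 - τ).toAddMonoidHom x) = 0 := by
    intro x
    have h : (∑ i ∈ Finset.range p, τ ^ i) * (1 - τ) = 0 := by
      rw [geom_sum_mul_neg, hτ, sub_self]
    have := LinearMap.congr_fun h x
    simpa using this
  have hrange : A.subtype.toAddMonoidHom.range = A.toAddSubgroup := by
    ext x
    simp only [AddMonoidHom.mem_range, LinearMap.toAddMonoidHom_coe, Submodule.coe_subtype,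
      Submodule.mem_toAddSubgroup]
    constructor
    · rintro ⟨y, rfl⟩
      exact y.2
    · intro hx
      exact ⟨⟨x, hx⟩, rfl⟩
  have htr := fi_add_herbrand_transport A.subtype.toAddMonoidHom A.injective_subtype
    (by rw [hrange]; exact hidx) (1 - τ).toAddMonoidHom
    (∑ i ∈ Finset.range p, τ ^ i).toAddMonoidHom (1 - τA).toAddMonoidHom
    (∑ i ∈ Finset.range p, τA ^ i).toAddMonoidHom
    (by
      intro x
      simp [hτA])
    (by
      intro x
      simp [LinearMap.sum_apply, hpowA])
    hθν hνθ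
  rw [← LinearMap.range_toAddSubgroup, ← LinearMap.ker_toAddSubgroup,
    ← LinearMap.range_toAddSubgroup, ← LinearMap.ker_toAddSubgroup,
    ← LinearMap.range_toAddSubgroup, ← LinearMap.ker_toAddSubgroup,
    ← LinearMap.range_toAddSubgroup, ← LinearMap.ker_toAddSubgroup] at htr
  obtain ⟨heq, hne0, hne1⟩ := htr
  refine ⟨b, ?_, hne0 hY0, hne1 hY1, ?_⟩
  · rw [← hrankA, hb, hkerA]
  rw [hkerA] at hlat
  set X0 := (LinearMap.range (∑ i ∈ Finset.range p, τ ^ i)).toAddSubgroup.relIndex
        (LinearMap.ker (1 - τ)).toAddSubgroup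
  set X1 := (LinearMap.range (1 - τ)).toAddSubgroup.relIndex
          (LinearMap.ker (∑ i ∈ Finset.range p, τ ^ i)).toAddSubgroup
  set Y0 := (LinearMap.range (∑ i ∈ Finset.range p, τA ^ i)).toAddSubgroup.relIndex
        (LinearMap.ker (1 - τA)).toAddSubgroup
  set Y1 := (LinearMap.range (1 - τA)).toAddSubgroup.relIndex
          (LinearMap.ker (∑ i ∈ Finset.range p, τA ^ i)).toAddSubgroup
  set a := finrank ℤ (LinearMap.ker (1 - τ))
  have h3 : Y1 * (p ^ b * X0) = Y1 * (p ^ a * X1) := by
    calc Y1 * (p ^ b * X0) = p ^ b * (X0 * Y1) := by ring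
      _ = p ^ b * (Y0 * X1) := by rw [heq]
      _ = (p ^ b * Y0) * X1 := by ring
      _ = (p ^ a * Y1) * X1 := by rw [hlat]
      _ = Y1 * (p ^ a * X1) := by ring
  exact Nat.eq_of_mul_eq_mul_left (Nat.pos_of_ne_zero hY1) h3

end ModuleVersion

end Fermat.Agent.S55
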