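import Mathlib

/-!
# S55 / SUnit block: Dirichlet's `S`-unit theorem (rank form)

`K` a number field, `T` a finite set of finite places of `K`.  The group of `T`-units
`(T : Set _).unit K` (Mathlib's `Set.unit`) is finitely generated and its `ℤ`-rank is
`Units.rank K + T.card`.
-/

open NumberField IsDedekindDomain

namespace Fermat.Agent.S55

set_option linter.style.haveILetI false
set_option linter.unusedSectionVars false
set_option autoImplicit false

variable (K : Type*) [Field K] [NumberField K]

/-- The `v`-adic valuation on `Kˣ` as a group homomorphism to `Multiplicative ℤ`. -/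
noncomputable def su_valUnits (v : HeightOneSpectrum (𝓞 K)) : Kˣ →* Multiplicative ℤ :=
  (WithZero.unitsWithZeroEquiv (α := Multiplicative ℤ)).toMonoidHom.comp
    (Units.map (v.valuation K).toMonoidHom)

theorem su_valUnits_coe (v : HeightOneSpectrum (𝓞 K)) (x : Kˣ) :
    ((su_valUnits K v x : Multiplicative ℤ) : WithZero (Multiplicative ℤ)) = v.valuation K (x : K) := by
  simp [su_valUnits, WithZero.unitsWithZeroEquiv]

theorem su_valUnits_eq_one_iff (v : HeightOneSpectrum (𝓞 K)) (x : Kˣ) :
    su_valUnits K v x = 1 ↔ v.valuation K (x : K) = 1 := by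
  rw [← su_valUnits_coe, ← WithZero.coe_one, WithZero.coe_inj]

/-- The additive order function `ord_v : Additive Kˣ →+ ℤ` (sign: `v(x) = exp (ord_v x)`). -/
noncomputable def su_ord (v : HeightOneSpectrum (𝓞 K)) : Additive Kˣ →+ ℤ :=
  MonoidHom.toAdditiveLeft (su_valUnits K v)

theorem su_ord_eq_zero_iff (v : HeightOneSpectrum (𝓞 K)) (x : Additive Kˣ) :
    su_ord K v x = 0 ↔ v.valuation K ((Additive.toMul x : Kˣ) : K) = 1 := by
  rw [← su_valUnits_eq_one_iff]
  simp [su_ord]

theorem su_valuation_eq_exp_ord (v : HeightOneSpectrum (𝓞 K)) (x : Additive Kˣ) :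
    v.valuation K ((Additive.toMul x : Kˣ) : K) = WithZero.exp (su_ord K v x) := by
  rw [← su_valUnits_coe]
  rfl


variable (T : Finset (HeightOneSpectrum (𝓞 K)))

/-- The units of `𝓞 K` as `T`-units. -/
noncomputable def su_unitsHom : (𝓞 K)ˣ →* ((T : Set (HeightOneSpectrum (𝓞 K))).unit K) where
  toFun u := ⟨Units.map (algebraMap (𝓞 K) K).toMonoidHom u, fun v _ => by
    have h1 : v.valuation K ((u : 𝓞 K) : K) ≤ 1 := v.valuation_le_one _
    have h2 : v.valuation K (((u⁻¹ : (𝓞 K)ˣ) : 𝓞 K) : K) ≤ 1 := v.valuation_le_one _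
    have h3 : v.valuation K ((u : 𝓞 K) : K) * v.valuation K (((u⁻¹ : (𝓞 K)ˣ) : 𝓞 K) : K) = 1 := by
      rw [← map_mul, ← map_mul (algebraMap (𝓞 K) K), ← Units.val_mul, mul_inv_cancel,
        Units.val_one, map_one, map_one]
    exact eq_one_of_one_le_mul_left h1 h2 h3.ge⟩
  map_one' := by ext; simp
  map_mul' a b := by ext; simp

theorem su_unitsHom_coe (u : (𝓞 K)ˣ) :
    (((su_unitsHom K T u : (T : Set (HeightOneSpectrum (𝓞 K))).unit K) : Kˣ) : K) =
      algebraMap (𝓞 K) K u := rfl

theorem su_unitsHom_injective : Function.Injective (su_unitsHom K T) := by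
  intro a b h
  have h' := congrArg (fun x : (T : Set (HeightOneSpectrum (𝓞 K))).unit K => ((x : Kˣ) : K)) h
  simp only [su_unitsHom_coe] at h'
  exact Units.ext (RingOfIntegers.coe_injective h')

/-- The orders at the places of `T`, as a `ℤ`-linear map on the (additive) group of `T`-units. -/
noncomputable def su_ordT :
    Additive ((T : Set (HeightOneSpectrum (𝓞 K))).unit K) →ₗ[ℤ] (T → ℤ) :=
  LinearMap.pi fun v =>
    ((su_ord K v.1).comp (MonoidHom.toAdditive (Subgroup.subtype _))).toIntLinearMap

theorem su_ordT_apply (x : Additive ((T : Set (HeightOneSpectrum (𝓞 K))).unit K)) (v : T) :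
    su_ordT K T x v = su_ord K v.1 (Additive.ofMul ((Additive.toMul x : _) : Kˣ)) := rfl

/-- The units of `𝓞 K` inside the `T`-units, additively. -/
noncomputable def su_unitsLin :
    Additive (𝓞 K)ˣ →ₗ[ℤ] Additive ((T : Set (HeightOneSpectrum (𝓞 K))).unit K) :=
  (MonoidHom.toAdditive (su_unitsHom K T)).toIntLinearMap

theorem su_unitsLin_injective : Function.Injective (su_unitsLin K T) := by
  intro a b h
  exact Additive.toMul.injective (su_unitsHom_injective K T (Additive.ofMul.injective h))

theorem su_ker_ordT : LinearMap.ker (su_ordT K T) = LinearMap.range (su_unitsLin K T) := by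
  ext x
  rw [LinearMap.mem_ker, LinearMap.mem_range]
  constructor
  · intro hx
    -- all valuations of `x` are `1`
    have hall : ∀ v : HeightOneSpectrum (𝓞 K),
        v.valuation K (((Additive.toMul x : _) : Kˣ) : K) = 1 := by
      intro v
      by_cases hv : v ∈ T
      · have := congrFun hx ⟨v, hv⟩
        rw [su_ordT_apply] at this
        exact (su_ord_eq_zero_iff K v _).1 this
      · exact (Additive.toMul x).2 v (by simpa using hv)
    have hall' : ∀ v : HeightOneSpectrum (𝓞 K),
        v.valuation K ((((Additive.toMul x : _) : Kˣ)⁻¹ : Kˣ) : K) = 1 := by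
      intro v
      rw [Units.val_inv_eq_inv_val, map_inv₀, hall v, inv_one]
    obtain ⟨a, ha⟩ := HeightOneSpectrum.mem_integers_of_valuation_le_one K _ fun v => (hall v).le
    obtain ⟨b, hb⟩ := HeightOneSpectrum.mem_integers_of_valuation_le_one K _ fun v => (hall' v).le
    have hab : a * b = 1 := by
      apply RingOfIntegers.coe_injective
      rw [map_mul, ha, hb, ← Units.val_mul, mul_inv_cancel, Units.val_one, map_one]
    have hba : b * a = 1 := by rw [mul_comm, hab]
    refine ⟨Additive.ofMul ⟨a, b, hab, hba⟩, ?_⟩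
    apply Additive.toMul.injective
    apply Subtype.ext
    apply Units.ext
    exact ha
  · rintro ⟨u, rfl⟩
    funext v
    rw [su_ordT_apply, Pi.zero_apply, su_ord_eq_zero_iff]
    have h1 : v.1.valuation K (((Additive.toMul u : (𝓞 K)ˣ) : 𝓞 K) : K) ≤ 1 :=
      v.1.valuation_le_one _
    have h2 : v.1.valuation K ((((Additive.toMul u)⁻¹ : (𝓞 K)ˣ) : 𝓞 K) : K) ≤ 1 :=
      v.1.valuation_le_one _
    have h3 : v.1.valuation K (((Additive.toMul u : (𝓞 K)ˣ) : 𝓞 K) : K) *
        v.1.valuation K ((((Additive.toMul u)⁻¹ : (𝓞 K)ˣ) : 𝓞 K) : K) = 1 := by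
      rw [← map_mul, ← map_mul (algebraMap (𝓞 K) K), ← Units.val_mul, mul_inv_cancel,
        Units.val_one, map_one, map_one]
    exact eq_one_of_one_le_mul_left h1 h2 h3.ge


/-- For every place `v` there is a global element whose divisor is `h • v`, `h` the class number. -/
theorem su_exists_generator (v : HeightOneSpectrum (𝓞 K)) :
    ∃ x : Kˣ, su_ord K v (Additive.ofMul x) = -(classNumber K : ℤ) ∧
      ∀ w : HeightOneSpectrum (𝓞 K), w ≠ v → w.valuation K (x : K) = 1 := by
  classical
  have hv0 : v.asIdeal ∈ nonZeroDivisors (Ideal (𝓞 K)) :=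
    mem_nonZeroDivisors_of_ne_zero v.ne_bot
  have hpow : v.asIdeal ^ classNumber K ∈ nonZeroDivisors (Ideal (𝓞 K)) :=
    pow_mem hv0 _
  have h1 : ClassGroup.mk0 ⟨v.asIdeal ^ classNumber K, hpow⟩ = 1 := by
    have : (⟨v.asIdeal ^ classNumber K, hpow⟩ : nonZeroDivisors (Ideal (𝓞 K))) =
        ⟨v.asIdeal, hv0⟩ ^ classNumber K := rfl
    rw [this, map_pow, classNumber, ← Nat.card_eq_fintype_card]
    exact pow_card_eq_one'
  obtain ⟨a, ha⟩ := ((ClassGroup.mk0_eq_one_iff hpow).1 h1).principal
  rw [Ideal.submodule_span_eq] at ha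
  have ha0 : a ≠ 0 := by
    rintro rfl
    rw [Set.singleton_zero, Ideal.span_zero] at ha
    exact (pow_ne_zero _ v.ne_bot) ha
  have haK : (algebraMap (𝓞 K) K a) ≠ 0 := by
    rwa [Ne, FaithfulSMul.algebraMap_eq_zero_iff]
  refine ⟨Units.mk0 _ haK, ?_, ?_⟩
  · have hval : v.valuation K (algebraMap (𝓞 K) K a) =
        WithZero.exp (-(classNumber K : ℤ)) := by
      rw [HeightOneSpectrum.valuation_of_algebraMap,
        HeightOneSpectrum.intValuation_eq_exp_neg_multiplicity v ha0, ← ha,
        multiplicity_pow_self v.ne_bot (Ideal.isUnit_iff.not.2 v.isPrime.ne_top)]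
    have h2 := su_valuation_eq_exp_ord K v (Additive.ofMul (Units.mk0 _ haK))
    rw [toMul_ofMul, Units.val_mk0, hval] at h2
    exact (WithZero.exp_inj.1 h2).symm
  · intro w hw
    rw [Units.val_mk0, HeightOneSpectrum.valuation_eq_one_iff_notMem]
    intro haw
    apply hw
    have hle : v.asIdeal ^ classNumber K ≤ w.asIdeal := by
      rw [ha, Ideal.span_singleton_le_iff_mem]; exact haw
    have hle' : v.asIdeal ≤ w.asIdeal := w.isPrime.le_of_pow_le hle
    exact HeightOneSpectrum.ext (v.isMaximal.eq_of_le w.isPrime.ne_top hle').symm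


open scoped Classical in
theorem su_single_mem_range_ordT (v : T) :
    (Pi.single v (-(classNumber K : ℤ)) : T → ℤ) ∈ LinearMap.range (su_ordT K T) := by
  obtain ⟨x, hx, hx'⟩ := su_exists_generator K v.1
  have hxT : x ∈ (T : Set (HeightOneSpectrum (𝓞 K))).unit K := by
    intro w hw
    apply hx' w
    rintro rfl
    exact hw (by simp)
  refine ⟨Additive.ofMul ⟨x, hxT⟩, ?_⟩
  funext w
  rw [su_ordT_apply]
  by_cases hwv : w = v
  · subst hwv
    rw [Pi.single_eq_same]
    exact hx
  · rw [Pi.single_eq_of_ne hwv, su_ord_eq_zero_iff]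
    exact hx' w.1 fun h => hwv (Subtype.ext h)

theorem su_smul_mem_range_ordT (f : T → ℤ) :
    (-(classNumber K : ℤ)) • f ∈ LinearMap.range (su_ordT K T) := by
  classical
  have : (-(classNumber K : ℤ)) • f = ∑ v : T, f v • (Pi.single v (-(classNumber K : ℤ)) : T → ℤ) := by
    funext w
    rw [Finset.sum_apply]
    simp only [Pi.smul_apply, smul_eq_mul, Pi.single_apply, mul_ite, mul_zero]
    rw [Finset.sum_ite_eq Finset.univ w]
    simp [mul_comm]
  rw [this]
  exact Submodule.sum_mem _ fun v _ => Submodule.smul_mem _ _ (su_single_mem_range_ordT K T v)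

theorem su_finrank_range_ordT :
    Module.finrank ℤ (LinearMap.range (su_ordT K T)) = T.card := by
  classical
  have hh : (-(classNumber K : ℤ)) ≠ 0 := by
    rw [neg_ne_zero]; exact_mod_cast (classNumber_ne_zero K)
  apply le_antisymm
  · calc Module.finrank ℤ (LinearMap.range (su_ordT K T)) ≤ Module.finrank ℤ (T → ℤ) :=
          Submodule.finrank_le _
      _ = T.card := by simp
  · let m : (T → ℤ) →ₗ[ℤ] (T → ℤ) := LinearMap.lsmul ℤ (T → ℤ) (-(classNumber K : ℤ))
    have hm : Function.Injective m := fun a b hab => by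
      have hab' : (-(classNumber K : ℤ)) • a = (-(classNumber K : ℤ)) • b := hab
      exact smul_right_injective _ hh hab'
    have hle : LinearMap.range m ≤ LinearMap.range (su_ordT K T) := by
      rintro _ ⟨f, rfl⟩
      exact su_smul_mem_range_ordT K T f
    calc T.card = Module.finrank ℤ (T → ℤ) := by simp
      _ = Module.finrank ℤ (LinearMap.range m) := (LinearMap.finrank_range_of_inj hm).symm
      _ ≤ Module.finrank ℤ (LinearMap.range (su_ordT K T)) := Submodule.finrank_mono hle

/-- Finite generation of the `T`-units. -/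
instance su_unit_finite :
    Module.Finite ℤ (Additive ((T : Set (HeightOneSpectrum (𝓞 K))).unit K)) := by
  rw [Module.finite_def]
  apply Submodule.fg_of_fg_map_of_fg_inf_ker (su_ordT K T)
  · exact IsNoetherian.noetherian _
  · rw [top_inf_eq, su_ker_ordT, LinearMap.range_eq_map]
    exact Submodule.FG.map _ (Module.finite_def.1 inferInstance)

/-- **Dirichlet's `S`-unit theorem**, rank form. -/
theorem su_finrank_unit :
    Module.finrank ℤ (Additive ((T : Set (HeightOneSpectrum (𝓞 K))).unit K)) =
      Units.rank K + T.card := by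
  have h1 := (LinearMap.ker (su_ordT K T)).finrank_quotient_add_finrank
  rw [LinearEquiv.finrank_eq (su_ordT K T).quotKerEquivRange, su_finrank_range_ordT,
    su_ker_ordT, LinearMap.finrank_range_of_inj (su_unitsLin_injective K T),
    Units.finrank_eq] at h1
  omega

end Fermat.Agent.S55
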