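import Mathlib
import Fermat.Agent.S55.SUnit.LatticeExact
import Fermat.Agent.S55.SUnit.Rank
import Fermat.Agent.S55.SUnit.Galois

/-!
# S55 / S-unit block, part 4: the Herbrand quotient of the `T`-units

`K/F` cyclic of odd prime degree `p` with generator `σ`, `S` a finite set of primes of `F`,
`T` the primes of `K` above `S`, `E_T` the `T`-units of `K`, `θ u = u / σ u`,
`ν u = ∏_{i<p} σ^i u` on `E_T`:

`su_sunits_herbrand : p * [ker θ : im ν] = (∏_{v ∈ S} n_v) * [ker ν : im θ]`, both indices nonzero,
where `n_v = e_v f_v` is the local degree, i.e. `h(E_T) = (1/p) ∏_{v ∈ S} n_v`.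
(All archimedean places split completely because `p` is odd.)
-/

namespace Fermat.Agent.S55

open NumberField IsDedekindDomain Module Fermat.Agent.S14

set_option linter.unusedSectionVars false

variable {F K : Type*} [Field F] [NumberField F] [Field K] [NumberField K] [Algebra F K]
  [IsGalois F K]

variable (K) in
/-- The local degree `n_v = e_v f_v` of a prime `v` of `F` in the Galois extension `K/F`. -/
noncomputable def su_localDeg (v : HeightOneSpectrum (𝓞 F)) : ℕ :=
  v.asIdeal.ramificationIdxIn (𝓞 K) * v.asIdeal.inertiaDegIn (𝓞 K)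

variable (K) in
theorem su_card_fiber_mul_localDeg (v : HeightOneSpectrum (𝓞 F)) :
    Nat.card (dn_fiber F K v) * su_localDeg K v = Module.finrank F K :=
  dn_card_fiber_mul K v

variable (K) in
/-- In prime degree, either `v` splits completely (`g_v = p`, `n_v = 1`) or there is a unique
prime above it (`g_v = 1`, `n_v = p`). -/
theorem su_fiber_dichotomy {p : ℕ} (hp : p.Prime) (hdeg : Module.finrank F K = p)
    (v : HeightOneSpectrum (𝓞 F)) :
    (Nat.card (dn_fiber F K v) = 1 ∧ su_localDeg K v = p) ∨
      (Nat.card (dn_fiber F K v) = p ∧ su_localDeg K v = 1) := by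
  have h := su_card_fiber_mul_localDeg K v
  rw [hdeg] at h
  have hdvd : Nat.card (dn_fiber F K v) ∣ p := Dvd.intro _ h
  rcases (Nat.dvd_prime hp).mp hdvd with h1 | h1
  · left
    refine ⟨h1, ?_⟩
    rw [h1, one_mul] at h
    exact h
  · right
    refine ⟨h1, ?_⟩
    rw [h1] at h
    exact Nat.eq_of_mul_eq_mul_left hp.pos (by rw [h, mul_one])

/-- **Herbrand quotient of the `T`-units** for a cyclic extension `K/F` of odd prime degree `p`
with generator `σ` (ramification allowed): `h(E_T) = (1/p) ∏_{v ∈ S} n_v`. -/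
theorem su_sunits_herbrand (p : ℕ) [hp : Fact p.Prime] (hp2 : p ≠ 2) (σ : Gal(K/F))
    (hσ : ∀ g : Gal(K/F), g ∈ Subgroup.zpowers σ) (hdeg : Module.finrank F K = p)
    (S : Finset (HeightOneSpectrum (𝓞 F))) :
    (su_nu S σ p).range.relIndex (su_theta S σ).ker ≠ 0 ∧
      (su_theta S σ).range.relIndex (su_nu S σ p).ker ≠ 0 ∧
      p * (su_nu S σ p).range.relIndex (su_theta S σ).ker
        = (∏ v ∈ S, su_localDeg K v) * (su_theta S σ).range.relIndex (su_nu S σ p).ker := by
  classical
  have hσp : σ ^ p = 1 := by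
    rw [← hdeg, ← IsGalois.card_aut_eq_finrank]
    exact pow_card_eq_one'
  have hτp : su_tauAdd S σ ^ p = 1 := su_tauAdd_pow_eq_one S σ p hσp
  obtain ⟨b, hb, hX0, hX1, heq⟩ := su_module_herbrand p (su_tauAdd S σ) hτp
    ((Units.torsionOrder K : ℕ) : ℤ) (by exact_mod_cast Units.torsionOrder_ne_zero K)
    (su_htors (su_ET F K S))
  rw [su_finrank_fixed S σ hσ, su_finrank_unit F S] at hb heq
  rw [su_one_sub_tauAdd, su_sum_tauAdd] at hX0 hX1 heq
  rw [su_finrank_unit K (su_primesAbove F K S), su_card_primesAbove] at hb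
  refine ⟨hX0, hX1, ?_⟩
  -- unit ranks
  have hodd : Odd (Module.finrank F K) := by
    rw [hdeg]; exact hp.out.odd_of_ne_two hp2
  have := IsUnramifiedAtInfinitePlaces_of_odd_finrank hodd
  have hcard := IsUnramifiedAtInfinitePlaces.card_infinitePlace F K
  rw [hdeg] at hcard
  have hpos : 0 < Fintype.card (InfinitePlace F) := Fintype.card_pos
  obtain ⟨c, hc⟩ : ∃ c, Fintype.card (InfinitePlace F) = c + 1 :=
    ⟨Fintype.card (InfinitePlace F) - 1, by omega⟩
  have hrF : Units.rank F = c := by rw [Units.rank, hc]; simp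
  have hrK : Units.rank K = c * p + p - 1 := by
    rw [Units.rank, hcard, hc]; ring_nf
  -- splitting the primes of `S`
  set S₂ := S.filter (fun v => Nat.card (dn_fiber F K v) = 1) with hS₂
  set S₁ := S.filter (fun v => ¬ Nat.card (dn_fiber F K v) = 1) with hS₁
  have hsum : ∑ v ∈ S, Nat.card (dn_fiber F K v) = S₂.card + p * S₁.card := by
    rw [← Finset.sum_filter_add_sum_filter_not S (fun v => Nat.card (dn_fiber F K v) = 1)]
    congr 1
    · rw [Finset.card_eq_sum_ones]
      exact Finset.sum_congr rfl fun v hv => (Finset.mem_filter.mp hv).2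
    · rw [mul_comm, ← smul_eq_mul, ← Finset.sum_const]
      refine Finset.sum_congr rfl fun v hv => ?_
      rcases su_fiber_dichotomy K hp.out hdeg v with h | h
      · exact absurd h.1 (Finset.mem_filter.mp hv).2
      · exact h.1
  have hprod : ∏ v ∈ S, su_localDeg K v = p ^ S₂.card := by
    rw [← Finset.prod_filter_mul_prod_filter_not S (fun v => Nat.card (dn_fiber F K v) = 1)]
    have h1 : ∏ v ∈ S.filter (fun v => Nat.card (dn_fiber F K v) = 1), su_localDeg K v
        = p ^ S₂.card := by
      rw [← Finset.prod_const]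
      refine Finset.prod_congr rfl fun v hv => ?_
      rcases su_fiber_dichotomy K hp.out hdeg v with h | h
      · exact h.2
      · have h3 := (Finset.mem_filter.mp hv).2
        rw [h.1] at h3
        exact absurd h3 hp.out.one_lt.ne'
    have h2 : ∏ v ∈ S.filter (fun v => ¬ Nat.card (dn_fiber F K v) = 1), su_localDeg K v = 1 := by
      refine Finset.prod_eq_one fun v hv => ?_
      rcases su_fiber_dichotomy K hp.out hdeg v with h | h
      · exact absurd h.1 (Finset.mem_filter.mp hv).2
      · exact h.2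
    rw [h1, h2, mul_one]
  have hScard : S.card = S₂.card + S₁.card := by
    rw [hS₂, hS₁, Finset.card_filter_add_card_filter_not]
  rw [hsum, hrF, hrK, hScard] at hb
  rw [hrF, hScard] at heq
  rw [hprod]
  -- arithmetic: `b = c + 1 + s₁`
  obtain ⟨k, rfl⟩ : ∃ k, p = k + 1 := ⟨p - 1, by have := hp.out.pos; omega⟩
  have hk : 0 < k := by
    have := hp.out.two_le
    omega
  simp only [Nat.add_sub_cancel] at hb
  have hbk : b * k = (c + 1 + S₁.card) * k := by
    have e1 : c * (k + 1) + (k + 1) - 1 = c * k + c + k := by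
      have : c * (k + 1) = c * k + c := by ring
      omega
    have e2 : (k + 1) * S₁.card = k * S₁.card + S₁.card := by ring
    have e3 : (c + 1 + S₁.card) * k = c * k + k + k * S₁.card := by ring
    rw [e1, e2] at hb
    rw [e3]
    omega
  have hbeq : b = c + 1 + S₁.card := Nat.eq_of_mul_eq_mul_right hk hbk
  rw [hbeq] at heq
  set X0 := (su_nu S σ (k + 1)).range.relIndex (su_theta S σ).ker
  set X1 := (su_theta S σ).range.relIndex (su_nu S σ (k + 1)).ker
  have heq' : (k + 1) ^ (c + S₁.card) * ((k + 1) * X0)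
      = (k + 1) ^ (c + S₁.card) * ((k + 1) ^ S₂.card * X1) := by
    calc (k + 1) ^ (c + S₁.card) * ((k + 1) * X0) = (k + 1) ^ (c + 1 + S₁.card) * X0 := by ring
      _ = (k + 1) ^ (c + (S₂.card + S₁.card)) * X1 := heq
      _ = (k + 1) ^ (c + S₁.card) * ((k + 1) ^ S₂.card * X1) := by ring
  exact Nat.eq_of_mul_eq_mul_left (pow_pos (Nat.succ_pos k) _) heq'

end Fermat.Agent.S55
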