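import Mathlib

/-!
# S55 / induced modules have trivial `h0`, `h1` (explicit form)

`M` a commutative group, `σ : MulAut M` with `σ ^ n = 1`, and `π : M →* M` an endomorphism.
If `x` satisfies the "partition of unity" identity `∏ k < n, σ^k (π (σ^{-k} x)) = x`, then:
if `x` is `σ`-fixed it is the norm of `π x`; if `x` has norm `1` it is of the form `σ y / y`,
with `y` in any prescribed subgroup stable under `σ^{±k}` and `π` that contains `x`.
-/

namespace Fermat.Agent.S55

set_option linter.style.haveILetI false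
set_option linter.unusedSectionVars false
set_option autoImplicit false

open Finset

variable {M : Type*} [CommGroup M]

theorem hq_induced_fixed_is_norm (σ : MulAut M) (n : ℕ) (π : M →* M) (x : M)
    (hπ : ∏ k ∈ range n, (σ ^ k) (π ((σ ^ k)⁻¹ x)) = x)
    (hx : σ x = x) : ∏ k ∈ range n, (σ ^ k) (π x) = x := by
  have hfix : ∀ k : ℕ, (σ ^ k)⁻¹ x = x := by
    intro k
    have h1 : (σ ^ k) x = x := by
      induction k with
      | zero => simp
      | succ k ih => rw [pow_succ, MulAut.mul_apply, hx, ih]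
    calc (σ ^ k)⁻¹ x = (σ ^ k)⁻¹ ((σ ^ k) x) := by rw [h1]
      _ = x := by rw [← MulAut.mul_apply, inv_mul_cancel, MulAut.one_apply]
  simp only [hfix] at hπ
  exact hπ

theorem hq_induced_norm_one (σ : MulAut M) (n : ℕ) (hσ : σ ^ n = 1) (π : M →* M)
    (N : Subgroup M) (hNσ : ∀ k : ℕ, ∀ y ∈ N, (σ ^ k) y ∈ N)
    (hNσ' : ∀ k : ℕ, ∀ y ∈ N, (σ ^ k)⁻¹ y ∈ N) (hNπ : ∀ y ∈ N, π y ∈ N)
    (x : M) (hxN : x ∈ N)
    (hπ : ∏ k ∈ range n, (σ ^ k) (π ((σ ^ k)⁻¹ x)) = x)
    (hx : ∏ k ∈ range n, (σ ^ k) x = 1) : ∃ y ∈ N, σ y / y = x := by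
  -- partial norms `c k = ∏ j < k, σ^j x`
  set c : ℕ → M := fun k => ∏ j ∈ range k, (σ ^ j) x with hc
  have hc0 : c 0 = 1 := by simp [hc]
  have hcn : c n = 1 := hx
  have hcN : ∀ k, c k ∈ N := fun k => Subgroup.prod_mem _ fun j _ => hNσ j x hxN
  have hcs : ∀ k, σ (c k) = c (k + 1) / x := by
    intro k
    simp only [hc]
    rw [map_prod, prod_range_succ' _ k, pow_zero, MulAut.one_apply, mul_div_cancel_right]
    refine prod_congr rfl fun j _ => ?_
    rw [pow_succ', MulAut.mul_apply]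
  set z : M := ∏ k ∈ range n, (σ ^ k) (π ((σ ^ k)⁻¹ (c k))) with hz
  have hzN : z ∈ N :=
    Subgroup.prod_mem _ fun k _ => hNσ k _ (hNπ _ (hNσ' k _ (hcN k)))
  refine ⟨z⁻¹, N.inv_mem hzN, ?_⟩
  have hσz : σ z = z / x := by
    rw [hz, map_prod]
    -- shift the index
    have h1 : ∀ k, σ ((σ ^ k) (π ((σ ^ k)⁻¹ (c k)))) =
        (σ ^ (k + 1)) (π ((σ ^ (k + 1))⁻¹ (c (k + 1)))) /
          (σ ^ (k + 1)) (π ((σ ^ (k + 1))⁻¹ x)) := by
      intro k
      rw [← map_div, ← map_div, ← map_div, ← hcs k]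
      rw [pow_succ' σ k, MulAut.mul_apply, mul_inv_rev, MulAut.mul_apply]
      congr 3
      rw [← MulAut.mul_apply _ σ⁻¹ σ, inv_mul_cancel, MulAut.one_apply]
    simp only [h1]
    rw [prod_div_distrib]
    -- both shifted products equal the unshifted ones
    have hshift : ∀ F : ℕ → M, F n = F 0 →
        ∏ k ∈ range n, F (k + 1) = ∏ k ∈ range n, F k := by
      intro F hF
      rcases Nat.eq_zero_or_pos n with h0 | hpos
      · subst h0; simp
      · obtain ⟨m, rfl⟩ : ∃ m, n = m + 1 := ⟨n - 1, by omega⟩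
        rw [prod_range_succ (fun k => F (k + 1)), prod_range_succ' F, hF]
    rw [hshift (fun k => (σ ^ k) (π ((σ ^ k)⁻¹ (c k)))) (by
        simp only [hσ, hcn, hc0, pow_zero]),
      hshift (fun k => (σ ^ k) (π ((σ ^ k)⁻¹ x))) (by simp only [hσ, pow_zero]), hπ]
  rw [map_inv, hσz]
  simp [div_eq_mul_inv, mul_comm]

/-! ### Orbit transversals for a permutation of prime order -/

/-- A permutation `s` with `s ^ p = 1`, `p` prime: if `s ^ k` fixes a point `x` for some
`0 < k < p` then `s` fixes `x`. -/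
theorem hq_fixed_of_pow_fixed {X : Type*} (s : Equiv.Perm X) (p : ℕ) [hp : Fact p.Prime]
    (hs : s ^ p = 1) {k : ℕ} (hk0 : 0 < k) (hkp : k < p) {x : X} (hx : (s ^ k) x = x) :
    s x = x := by
  have hcop : Nat.Coprime k p :=
    Nat.Coprime.symm ((Nat.Prime.coprime_iff_not_dvd hp.out).2
      (Nat.not_dvd_of_pos_of_lt hk0 hkp))
  -- Bezout: `a * k ≡ 1 mod p`
  obtain ⟨a, -, ha⟩ := Nat.exists_mul_mod_eq_one_of_coprime hcop hp.out.one_lt
  have hpow : ∀ m : ℕ, (s ^ (k * m)) x = x := by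
    intro m
    induction m with
    | zero => simp
    | succ m ih => rw [mul_add, mul_one, pow_add, Equiv.Perm.mul_apply, hx, ih]
  have h1 : s ^ (k * a) = s := by
    conv_rhs => rw [← pow_one s]
    rw [← Nat.div_add_mod (k * a) p, ha, pow_add, pow_mul, hs, one_pow, one_mul]
  have := hpow a
  rwa [h1] at this

/-- Cancelling a common power of a permutation. -/
theorem hq_pow_sub_fixed {X : Type*} (s : Equiv.Perm X) {k j : ℕ} (hkj : k ≤ j) {x : X}
    (h : (s ^ k) x = (s ^ j) x) : (s ^ (j - k)) x = x := by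
  have hj : j = k + (j - k) := by omega
  rw [hj, pow_add, Equiv.Perm.mul_apply] at h
  exact ((s ^ k).injective h).symm

/-- Orbit transversal for a permutation of prime order on its non-fixed points. -/
theorem hq_exists_transversal {X : Type*} (s : Equiv.Perm X) (p : ℕ) [hp : Fact p.Prime]
    (hs : s ^ p = 1) :
    ∃ R : Set X, (∀ y, s y ≠ y → ∃ k < p, ∃ r ∈ R, (s ^ k) r = y) ∧
      (∀ r ∈ R, s r ≠ r) ∧
      (∀ k < p, ∀ j < p, ∀ r ∈ R, ∀ r' ∈ R, (s ^ k) r = (s ^ j) r' → k = j ∧ r = r') := by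
  classical
  let S : Setoid X := Equiv.Perm.SameCycle.setoid s
  let rep : X → X := fun x => (Quotient.out (s := S) (Quotient.mk S x))
  have hrep : ∀ x, Equiv.Perm.SameCycle s (rep x) x := fun x =>
    Quotient.exact (s := S) (Quotient.out_eq (s := S) (Quotient.mk S x))
  have hrep_eq : ∀ x y, Equiv.Perm.SameCycle s x y → rep x = rep y := by
    intro x y hxy
    have : Quotient.mk S x = Quotient.mk S y := Quotient.sound (s := S) hxy
    simp only [rep, this]
  have hnat : ∀ x y, Equiv.Perm.SameCycle s x y → ∃ k < p, (s ^ k) x = y := by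
    rintro x y ⟨i, hi⟩
    refine ⟨(i % (p : ℤ)).toNat, ?_, ?_⟩
    · have h1 : i % (p : ℤ) < p := Int.emod_lt_of_pos _ (by exact_mod_cast hp.out.pos)
      have h0 : 0 ≤ i % (p : ℤ) := Int.emod_nonneg _ (by exact_mod_cast hp.out.ne_zero)
      omega
    · have h0 : 0 ≤ i % (p : ℤ) := Int.emod_nonneg _ (by exact_mod_cast hp.out.ne_zero)
      have e : s ^ i = s ^ ((i % (p : ℤ)).toNat) := by
        conv_lhs => rw [← Int.mul_ediv_add_emod i p, zpow_add, zpow_mul, zpow_natCast, hs, one_zpow,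
          one_mul]
        rw [← zpow_natCast, Int.toNat_of_nonneg h0]
      rw [← e]; exact hi
  have hfixpow : ∀ (x : X), s x = x → ∀ k : ℕ, (s ^ k) x = x := by
    intro x hx k
    induction k with
    | zero => simp
    | succ k ih => rw [pow_succ, Equiv.Perm.mul_apply, hx, ih]
  refine ⟨{x | s x ≠ x ∧ rep x = x}, ?_, fun r hr => hr.1, ?_⟩
  · intro y hy
    obtain ⟨k, hk, hky⟩ := hnat _ _ (hrep y)
    refine ⟨k, hk, rep y, ⟨?_, ?_⟩, hky⟩
    · intro hfix
      apply hy
      have := hfixpow _ hfix k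
      rw [hky] at this
      rw [this]; exact hfix
    · exact hrep_eq _ _ (hrep y)
  · rintro k hk j hj r ⟨hr, hrr⟩ r' ⟨hr', hrr'⟩ h
    have hsc : Equiv.Perm.SameCycle s r r' := by
      refine ⟨(k : ℤ) - j, ?_⟩
      rw [sub_eq_neg_add, zpow_add, Equiv.Perm.mul_apply, zpow_natCast, h, zpow_neg,
        zpow_natCast, ← Equiv.Perm.mul_apply, inv_mul_cancel, Equiv.Perm.one_apply]
    have hrr'' : r = r' := by rw [← hrr, ← hrr', hrep_eq _ _ hsc]
    subst hrr''
    refine ⟨?_, rfl⟩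
    by_contra hne
    rcases Nat.lt_or_gt_of_ne hne with hlt | hgt
    · have := hq_pow_sub_fixed s hlt.le h
      exact hr (hq_fixed_of_pow_fixed s p hs (by omega) (by omega) this)
    · have := hq_pow_sub_fixed s hgt.le h.symm
      exact hr (hq_fixed_of_pow_fixed s p hs (by omega) (by omega) this)

end Fermat.Agent.S55
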