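import Fermat.Agent.S55.SUnit.HerbrandPi
import Fermat.Agent.S55.SUnit.Induced

/-!
# S55 / Herbrand indices of a finite product with a permuting automorphism of prime order

`M = Π i, G i` a finite product of commutative groups, `σ : MulAut M` with `σ ^ p = 1`
(`p` prime) which maps the `i`-th factor into the `s i`-th factor for a permutation `s` of the
index set.  Then `h0` and `h1` of `(M, σ)` are the products of the `h0`, `h1` of the factors
`G i` with `s i = i`: the factors that are moved form an induced module.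
-/

namespace Fermat.Agent.S55

set_option linter.style.haveILetI false
set_option linter.unusedSectionVars false
set_option autoImplicit false

open Finset
open scoped Classical

section Res

variable {ι : Type*} {G : ι → Type*} [∀ i, CommGroup (G i)]

/-- Restriction of an element of a product to a set of indices (`1` elsewhere). -/
noncomputable def hq_res (A : Set ι) : (∀ i, G i) →* (∀ i, G i) where
  toFun x := fun j => if j ∈ A then x j else 1
  map_one' := by funext j; simp
  map_mul' x y := by funext j; by_cases h : j ∈ A <;> simp [h]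

theorem hq_res_apply (A : Set ι) (x : ∀ i, G i) (j : ι) :
    hq_res A x j = if j ∈ A then x j else 1 := rfl

theorem hq_res_mulSingle [DecidableEq ι] (A : Set ι) (i : ι) (a : G i) :
    hq_res A (Pi.mulSingle i a) = if i ∈ A then Pi.mulSingle i a else 1 := by
  funext j
  rw [hq_res_apply]
  by_cases hi : i ∈ A
  · rw [if_pos hi]
    by_cases hj : j ∈ A
    · rw [if_pos hj]
    · rw [if_neg hj, Pi.mulSingle_eq_of_ne]
      rintro rfl; exact hj hi
  · rw [if_neg hi]
    by_cases hj : j ∈ A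
    · rw [if_pos hj, Pi.mulSingle_eq_of_ne]
      · rfl
      · rintro rfl; exact hi hj
    · rw [if_neg hj]; rfl

variable [Fintype ι] [DecidableEq ι]

/-- `σ` maps the `i`-th factor into the `s i`-th factor ⟹ `σ ∘ res_A = res_{s A} ∘ σ`. -/
theorem hq_sigma_res (σ : MulAut (∀ i, G i)) (s : Equiv.Perm ι)
    (hσs : ∀ i (a : G i), ∃ b : G (s i), σ (Pi.mulSingle i a) = Pi.mulSingle (s i) b)
    (A : Set ι) (x : ∀ i, G i) : σ (hq_res A x) = hq_res (s '' A) (σ x) := by
  have h : (σ.toMonoidHom).comp (hq_res A) = (hq_res (s '' A)).comp σ.toMonoidHom := by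
    apply MonoidHom.pi_ext
    intro i a
    simp only [MonoidHom.comp_apply, MulEquiv.coe_toMonoidHom]
    obtain ⟨b, hb⟩ := hσs i a
    rw [hq_res_mulSingle, hb, hq_res_mulSingle]
    by_cases hi : i ∈ A
    · rw [if_pos hi, if_pos (Set.mem_image_of_mem s hi), hb]
    · rw [if_neg hi, if_neg, map_one]
      rintro ⟨j, hj, hji⟩
      exact hi (s.injective hji ▸ hj)
  exact DFunLike.congr_fun h x

theorem hq_sigma_pow_res (σ : MulAut (∀ i, G i)) (s : Equiv.Perm ι)
    (hσs : ∀ i (a : G i), ∃ b : G (s i), σ (Pi.mulSingle i a) = Pi.mulSingle (s i) b)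
    (A : Set ι) (k : ℕ) (x : ∀ i, G i) :
    (σ ^ k) (hq_res A x) = hq_res ((s ^ k) '' A) ((σ ^ k) x) := by
  induction k generalizing x with
  | zero => simp
  | succ k ih =>
    rw [pow_succ', MulAut.mul_apply, ih, hq_sigma_res σ s hσs, MulAut.mul_apply, pow_succ',
      Equiv.Perm.coe_mul, Set.image_comp]

end Res

section Main

variable {ι : Type*} [Fintype ι] [DecidableEq ι] {G : ι → Type*} [∀ i, CommGroup (G i)]

/-- The subgroup of elements supported on the indices moved by `s`. -/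
def hq_moved (s : Equiv.Perm ι) : Subgroup (∀ i, G i) where
  carrier := {x | ∀ i, s i = i → x i = 1}
  one_mem' := fun _ _ => rfl
  mul_mem' := fun {x y} hx hy i hi => by
    change x i * y i = 1
    rw [hx i hi, hy i hi, one_mul]
  inv_mem' := fun {x} hx i hi => by
    change (x i)⁻¹ = 1
    rw [hx i hi, inv_one]

theorem hq_mem_moved_iff (s : Equiv.Perm ι) (x : ∀ i, G i) :
    x ∈ hq_moved (G := G) s ↔ hq_res {i | s i ≠ i} x = x := by
  constructor
  · intro hx
    funext j
    rw [hq_res_apply]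
    by_cases hj : s j = j
    · rw [if_neg (show ¬ j ∈ {i | s i ≠ i} from fun h => h hj), hx j hj]
    · rw [if_pos (show j ∈ {i | s i ≠ i} from hj)]
  · intro hx i hi
    rw [← hx, hq_res_apply, if_neg (show ¬ i ∈ {i | s i ≠ i} from fun h => h hi)]

theorem hq_res_mem_moved (s : Equiv.Perm ι) (A : Set ι) (hA : ∀ r ∈ A, s r ≠ r)
    (x : ∀ i, G i) : hq_res A x ∈ hq_moved (G := G) s := by
  intro i hi
  rw [hq_res_apply, if_neg]
  exact fun h => hA i h hi

theorem hq_image_moved (s : Equiv.Perm ι) (k : ℕ) :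
    (s ^ k) '' {i | s i ≠ i} = {i | s i ≠ i} := by
  have hcomm : ∀ j, s ((s ^ k) j) = (s ^ k) (s j) := fun j => by
    rw [← Equiv.Perm.mul_apply, ← pow_succ', pow_succ, Equiv.Perm.mul_apply]
  ext j
  constructor
  · rintro ⟨i, hi, rfl⟩
    change s ((s ^ k) i) ≠ (s ^ k) i
    rw [hcomm]
    exact fun h => hi ((s ^ k).injective h)
  · intro hj
    refine ⟨(s ^ k)⁻¹ j, ?_, by rw [← Equiv.Perm.mul_apply, mul_inv_cancel, Equiv.Perm.one_apply]⟩
    change s ((s ^ k)⁻¹ j) ≠ (s ^ k)⁻¹ j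
    intro h
    apply hj
    have e : (s ^ k) ((s ^ k)⁻¹ j) = j := by
      rw [← Equiv.Perm.mul_apply, mul_inv_cancel, Equiv.Perm.one_apply]
    have := congrArg (s ^ k) h
    rwa [← hcomm, e] at this

variable (σ : MulAut (∀ i, G i)) (s : Equiv.Perm ι)
  (hσs : ∀ i (a : G i), ∃ b : G (s i), σ (Pi.mulSingle i a) = Pi.mulSingle (s i) b)

include hσs in
theorem hq_moved_stable (k : ℕ) (x : ∀ i, G i) (hx : x ∈ hq_moved (G := G) s) :
    (σ ^ k) x ∈ hq_moved (G := G) s := by
  rw [hq_mem_moved_iff] at hx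
  rw [← hx, hq_sigma_pow_res σ s hσs, hq_image_moved]
  exact hq_res_mem_moved s _ (fun r hr => hr) _

include hσs in
theorem hq_moved_stable_inv (p : ℕ) (hp0 : 0 < p) (hσ : σ ^ p = 1) (k : ℕ) (x : ∀ i, G i)
    (hx : x ∈ hq_moved (G := G) s) : (σ ^ k)⁻¹ x ∈ hq_moved (G := G) s := by
  have h1 : (σ ^ k)⁻¹ = σ ^ (k * (p - 1)) := by
    rw [inv_eq_iff_mul_eq_one, ← pow_add]
    have : k + k * (p - 1) = p * k := by
      obtain ⟨m, rfl⟩ : ∃ m, p = m + 1 := ⟨p - 1, by omega⟩
      simp only [Nat.add_sub_cancel]; ring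
    rw [this, pow_mul, hσ, one_pow]
  rw [h1]
  exact hq_moved_stable σ s hσs _ x hx

include hσs in
/-- Partition of unity on the moved part. -/
theorem hq_moved_partition (p : ℕ) (R : Set ι)
    (hR1 : ∀ y, s y ≠ y → ∃ k < p, ∃ r ∈ R, (s ^ k) r = y)
    (hR3 : ∀ k < p, ∀ j < p, ∀ r ∈ R, ∀ r' ∈ R, (s ^ k) r = (s ^ j) r' → k = j ∧ r = r')
    (x : ∀ i, G i) (hx : x ∈ hq_moved (G := G) s) :
    ∏ k ∈ range p, (σ ^ k) (hq_res R ((σ ^ k)⁻¹ x)) = x := by
  have h1 : ∀ k : ℕ, (σ ^ k) (hq_res R ((σ ^ k)⁻¹ x)) =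
      hq_res ((s ^ k : Equiv.Perm ι) '' R) x := by
    intro k
    rw [hq_sigma_pow_res σ s hσs, ← MulAut.mul_apply, mul_inv_cancel, MulAut.one_apply]
  simp only [h1]
  funext j
  rw [Finset.prod_apply]
  simp only [hq_res_apply]
  by_cases hj : s j = j
  · rw [hx j hj]
    exact Finset.prod_eq_one fun k _ => by split_ifs <;> rfl
  · obtain ⟨k0, hk0, r, hr, hrj⟩ := hR1 j hj
    rw [Finset.prod_eq_single k0]
    · rw [if_pos ⟨r, hr, hrj⟩]
    · intro k hk hkk0
      rw [if_neg]
      rintro ⟨r', hr', hr'j⟩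
      exact hkk0 (hR3 k (Finset.mem_range.1 hk) k0 hk0 r' hr' r hr (hr'j.trans hrj.symm)).1
    · intro h
      exact absurd (Finset.mem_range.2 hk0) h

/-- `σ` fixes the norm, when `σ ^ p = 1`. -/
theorem hq_sigma_norm {M : Type*} [CommGroup M] (τ : MulAut M) (p : ℕ) (hτ : τ ^ p = 1) (x : M) :
    τ (∏ k ∈ range p, (τ ^ k) x) = ∏ k ∈ range p, (τ ^ k) x := by
  rw [map_prod]
  rcases Nat.eq_zero_or_pos p with h0 | hpos
  · subst h0; simp
  · obtain ⟨m, rfl⟩ : ∃ m, p = m + 1 := ⟨p - 1, by omega⟩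
    have h1 : ∀ k, τ ((τ ^ k) x) = (τ ^ (k + 1)) x := fun k => by
      rw [pow_succ', MulAut.mul_apply]
    simp only [h1]
    rw [prod_range_succ (fun k => (τ ^ (k + 1)) x), prod_range_succ' (fun k => (τ ^ k) x), hτ]
    simp

include hσs in
/-- **Semilocal Herbrand indices.**  For a finite product `Π i, G i` with an automorphism `σ`
of prime order `p` permuting the factors through `s`, and `f x = σ x / x`, `g x = ∏ σ^k x`:
`[ker f : im g] = ∏_{s i = i} [ker f_i : im g_i]` and `[ker g : im f] = ∏_{s i = i} [ker g_i : im f_i]`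
for any endomorphisms `f_i, g_i` of the fixed factors compatible with `f`, `g`. -/
theorem hq_semilocal (p : ℕ) [hp : Fact p.Prime] (hs : s ^ p = 1) (hσ : σ ^ p = 1)
    (f g : (∀ i, G i) →* (∀ i, G i)) (hfdef : ∀ x, f x = σ x / x)
    (hgdef : ∀ x, g x = ∏ k ∈ range p, (σ ^ k) x)
    (f' g' : ∀ i : {i // s i = i}, G i.1 →* G i.1)
    (hf' : ∀ x (i : {i // s i = i}), f x i.1 = f' i (x i.1))
    (hg' : ∀ x (i : {i // s i = i}), g x i.1 = g' i (x i.1)) :
    g.range.relIndex f.ker = ∏ i, (g' i).range.relIndex (f' i).ker ∧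
      f.range.relIndex g.ker = ∏ i, (f' i).range.relIndex (g' i).ker := by
  obtain ⟨R, hR1, hR2, hR3⟩ := hq_exists_transversal s p hs
  -- the restriction map to the fixed factors
  let ρ : (∀ i, G i) →* (∀ i : {i // s i = i}, G i.1) :=
    MonoidHom.pi fun i => Pi.evalMonoidHom G i.1
  have hρ : Function.Surjective ρ := by
    intro y
    refine ⟨fun j => if h : s j = j then y ⟨j, h⟩ else 1, ?_⟩
    funext i
    change (if h : s i.1 = i.1 then y ⟨i.1, h⟩ else 1) = y i
    rw [dif_pos i.2]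
  have hker : ∀ x, x ∈ ρ.ker ↔ x ∈ hq_moved (G := G) s := by
    intro x
    rw [MonoidHom.mem_ker]
    constructor
    · intro hx i hi
      exact congrFun hx ⟨i, hi⟩
    · intro hx
      funext i
      exact hx i.1 i.2
  have hfg : ∀ x, f (g x) = 1 := by
    intro x
    rw [hfdef, hgdef, hq_sigma_norm σ p hσ, div_self']
  have hgf : ∀ x, g (f x) = 1 := by
    intro x
    rw [hfdef, map_div, hgdef, hgdef, ← hq_sigma_norm σ p hσ x, map_prod]
    have : ∀ k, (σ ^ k) (σ x) = σ ((σ ^ k) x) := fun k => by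
      rw [← MulAut.mul_apply, ← pow_succ, pow_succ', MulAut.mul_apply]
    simp only [this, div_self']
  -- `h0` of the kernel is trivial
  have hK0 : ∀ x ∈ ρ.ker, f x = 1 → ∃ y ∈ ρ.ker, g y = x := by
    intro x hx hfx
    rw [hker] at hx
    refine ⟨hq_res R x, (hker _).2 (hq_res_mem_moved s R hR2 x), ?_⟩
    rw [hgdef]
    apply hq_induced_fixed_is_norm σ p (hq_res R) x
      (hq_moved_partition σ s hσs p R hR1 hR3 x hx)
    have := hfx
    rwa [hfdef, div_eq_one] at this
  have hK1 : ∀ x ∈ ρ.ker, g x = 1 → ∃ y ∈ ρ.ker, f y = x := by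
    intro x hx hgx
    rw [hker] at hx
    obtain ⟨y, hy, hyx⟩ := hq_induced_norm_one σ p hσ (hq_res R) (hq_moved (G := G) s)
      (fun k y hy => hq_moved_stable σ s hσs k y hy)
      (fun k y hy => hq_moved_stable_inv σ s hσs p hp.out.pos hσ k y hy)
      (fun y _ => hq_res_mem_moved s R hR2 y) x hx
      (hq_moved_partition σ s hσs p R hR1 hR3 x hx) (by rw [← hgdef]; exact hgx)
    exact ⟨y, (hker y).2 hy, by rw [hfdef]; exact hyx⟩
  exact ⟨hq_relIndex_of_surjective_pi ρ hρ f g f' g' (fun x i => hf' x i) (fun x i => hg' x i)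
      hfg hgf hK0 hK1,
    hq_relIndex_of_surjective_pi ρ hρ g f g' f' (fun x i => hg' x i) (fun x i => hf' x i)
      hgf hfg hK1 hK0⟩

end Main

end Fermat.Agent.S55
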